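/-
S56 / Top / Alg : commutative algebra.  A complete noetherian local `𝒪`-algebra `R` with residue
field `k = 𝒪/𝔪` and at most `|k|^r` homomorphisms to `k[ε]` is a quotient of `𝒪⟦X₁,…,X_r⟧`.
The `𝒪`-algebra structure on `k[ε]` is `S53.algDN 𝒪` (local instance).
-/
import Fermat.Agent.S53.Tangent
import Fermat.Agent.S53.PSSurj
import Fermat.Agent.S53.PSEval
import Fermat.Agent.S53.PSComplete
import Fermat.Agent.S53.PowerSeriesTools

set_option autoImplicit false

noncomputable section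

namespace Fermat.Agent.S56.Top

open IsLocalRing

attribute [local instance] Fermat.Agent.S53.algDN

/-- Every `k`-linear functional on a local `k`-algebra `A` with `𝔪² = 0` and residue field `k` gives
an `𝒪`-algebra hom to the dual numbers, whose `ε`-part on `𝔪` is the functional. -/
theorem Alg1_key
    (𝒪 : Type) [CommRing 𝒪] [IsLocalRing 𝒪]
    (A : Type) [CommRing A] [IsLocalRing A] [Algebra 𝒪 A] [Algebra (ResidueField 𝒪) A]
    [IsScalarTower 𝒪 (ResidueField 𝒪) A]
    (hres : Function.Surjective (residue A ∘ algebraMap 𝒪 A))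
    (hsq : maximalIdeal A ^ 2 = ⊥)
    (l : A →ₗ[ResidueField 𝒪] ResidueField 𝒪) :
    ∃ ψ : A →ₐ[𝒪] DualNumber (ResidueField 𝒪),
      ∀ x ∈ maximalIdeal A, TrivSqZeroExt.snd (ψ x) = l x := by
  classical
  let ι : ResidueField 𝒪 →+* A := algebraMap (ResidueField 𝒪) A
  have hι : ∀ c : 𝒪, ι (residue 𝒪 c) = algebraMap 𝒪 A c := fun c =>
    (IsScalarTower.algebraMap_apply 𝒪 (ResidueField 𝒪) A c).symm
  let e₀ : ResidueField 𝒪 →+* ResidueField A := (residue A).comp ι
  have he₀ : Function.Bijective e₀ := by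
    refine ⟨e₀.injective, fun y => ?_⟩
    obtain ⟨c, hc⟩ := hres y
    refine ⟨residue 𝒪 c, ?_⟩
    show residue A (ι (residue 𝒪 c)) = y
    rw [hι]
    exact hc
  let e : ResidueField 𝒪 ≃+* ResidueField A := RingEquiv.ofBijective e₀ he₀
  let π : A →+* ResidueField 𝒪 := (e.symm : ResidueField A →+* ResidueField 𝒪).comp (residue A)
  have hπι : ∀ c, π (ι c) = c := by
    intro c
    show e.symm (residue A (ι c)) = c
    rw [RingEquiv.symm_apply_eq]
    rfl
  have hπ0 : ∀ x ∈ maximalIdeal A, π x = 0 := by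
    intro x hx
    show e.symm (residue A x) = 0
    rw [(residue_eq_zero_iff x).mpr hx, map_zero]
  have hmem : ∀ x : A, x - ι (π x) ∈ maximalIdeal A := by
    intro x
    rw [← residue_eq_zero_iff, map_sub, sub_eq_zero]
    show residue A x = e (e.symm (residue A x))
    rw [RingEquiv.apply_symm_apply]
  have hmul0 : ∀ x ∈ maximalIdeal A, ∀ y ∈ maximalIdeal A, x * y = 0 := by
    intro x hx y hy
    have : x * y ∈ maximalIdeal A ^ 2 := by
      rw [pow_two]; exact Ideal.mul_mem_mul hx hy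
    rwa [hsq, Ideal.mem_bot] at this
  have hsmul : ∀ (c : ResidueField 𝒪) (x : A), l (ι c * x) = c * l x := by
    intro c x
    have : ι c * x = c • x := by rw [Algebra.smul_def]
    rw [this, map_smul, smul_eq_mul]
  let ψ₀ : A →+* DualNumber (ResidueField 𝒪) :=
    { toFun := fun x => (π x, l (x - ι (π x)))
      map_one' := by
        apply TrivSqZeroExt.ext
        · show π 1 = 1
          simp
        · show l (1 - ι (π 1)) = 0
          simp
      map_mul' := by
        intro x y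
        apply TrivSqZeroExt.ext
        · show π (x * y) = π x * π y
          simp
        · show l (x * y - ι (π (x * y))) =
            π x • l (y - ι (π y)) + MulOpposite.op (π y) • l (x - ι (π x))
          have h0 := hmul0 _ (hmem x) _ (hmem y)
          have h1 : x * y - ι (π (x * y)) =
              ι (π x) * (y - ι (π y)) + ι (π y) * (x - ι (π x)) := by
            rw [map_mul, map_mul]
            linear_combination h0
          rw [h1, map_add, hsmul, hsmul]
          simp [mul_comm]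
      map_zero' := by
        apply TrivSqZeroExt.ext
        · show π 0 = 0
          simp
        · show l (0 - ι (π 0)) = 0
          simp
      map_add' := by
        intro x y
        apply TrivSqZeroExt.ext
        · show π (x + y) = π x + π y
          simp
        · show l (x + y - ι (π (x + y))) = l (x - ι (π x)) + l (y - ι (π y))
          rw [← map_add]
          congr 1
          rw [map_add, map_add]
          ring }
  refine ⟨{ ψ₀ with
            commutes' := ?_ }, ?_⟩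
  · intro c
    apply TrivSqZeroExt.ext
    · show π (algebraMap 𝒪 A c) = residue 𝒪 c
      rw [← hι, hπι]
    · show l (algebraMap 𝒪 A c - ι (π (algebraMap 𝒪 A c))) = 0
      rw [← hι, hπι, sub_self, map_zero]
  · intro x hx
    show l (x - ι (π x)) = l x
    rw [hπ0 x hx, map_zero, sub_zero]

/-- Counting: a finite linearly independent family in `𝔪_A` has at most `r` elements if there are at
most `|k|^r` homs to the dual numbers. -/
theorem Alg1_card_le
    (𝒪 : Type) [CommRing 𝒪] [IsLocalRing 𝒪] [Finite (ResidueField 𝒪)]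
    (A : Type) [CommRing A] [IsLocalRing A] [Algebra 𝒪 A] [Algebra (ResidueField 𝒪) A]
    [IsScalarTower 𝒪 (ResidueField 𝒪) A]
    (hres : Function.Surjective (residue A ∘ algebraMap 𝒪 A))
    (hsq : maximalIdeal A ^ 2 = ⊥) (r : ℕ)
    (hfin : Finite (A →ₐ[𝒪] DualNumber (ResidueField 𝒪)))
    (hcard : Nat.card (A →ₐ[𝒪] DualNumber (ResidueField 𝒪)) ≤ Nat.card (ResidueField 𝒪) ^ r)
    {ι : Type} [Fintype ι] (v : ι → A) (hv : ∀ i, v i ∈ maximalIdeal A)
    (hli : LinearIndependent (ResidueField 𝒪) v) : Fintype.card ι ≤ r := by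
  classical
  -- functional with prescribed values
  have hfun : ∀ c : ι → ResidueField 𝒪, ∃ l : A →ₗ[ResidueField 𝒪] ResidueField 𝒪,
      ∀ i, l (v i) = c i := by
    intro c
    obtain ⟨l, hl⟩ := LinearMap.exists_extend
      ((Finsupp.linearCombination (ResidueField 𝒪) c).comp
        (hli.repr : _ →ₗ[ResidueField 𝒪] (ι →₀ ResidueField 𝒪)))
    refine ⟨l, fun i => ?_⟩
    have h1 := LinearMap.congr_fun hl ⟨v i, Submodule.subset_span ⟨i, rfl⟩⟩
    have h2 : hli.repr ⟨v i, Submodule.subset_span ⟨i, rfl⟩⟩ = Finsupp.single i 1 :=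
      hli.repr_eq_single i _ rfl
    simp only [LinearMap.comp_apply, Submodule.subtype_apply, h2,
      Finsupp.linearCombination_single, one_smul] at h1
    exact h1
  choose L hL using hfun
  choose Ψ hΨ using fun c => Alg1_key 𝒪 A hres hsq (L c)
  have hinj : Function.Injective Ψ := by
    intro c c' h
    funext i
    rw [← hL c i, ← hL c' i, ← hΨ c _ (hv i), ← hΨ c' _ (hv i), h]
  have h1 := Nat.card_le_card_of_injective Ψ hinj
  rw [Nat.card_fun, Nat.card_eq_fintype_card (α := ι)] at h1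
  have h2 := h1.trans hcard
  have hk : 1 < Nat.card (ResidueField 𝒪) := Finite.one_lt_card
  exact (Nat.pow_le_pow_iff_right hk).mp h2

/-- Spanning family of size `r` for `𝔪_A`. -/
theorem Alg1_span
    (𝒪 : Type) [CommRing 𝒪] [IsLocalRing 𝒪] [Finite (ResidueField 𝒪)]
    (A : Type) [CommRing A] [IsLocalRing A] [Algebra 𝒪 A] [Algebra (ResidueField 𝒪) A]
    [IsScalarTower 𝒪 (ResidueField 𝒪) A]
    (hres : Function.Surjective (residue A ∘ algebraMap 𝒪 A))
    (hsq : maximalIdeal A ^ 2 = ⊥) (r : ℕ)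
    (hfin : Finite (A →ₐ[𝒪] DualNumber (ResidueField 𝒪)))
    (hcard : Nat.card (A →ₐ[𝒪] DualNumber (ResidueField 𝒪)) ≤ Nat.card (ResidueField 𝒪) ^ r) :
    ∃ x : Fin r → A, (∀ i, x i ∈ maximalIdeal A) ∧
      ∀ y ∈ maximalIdeal A, ∃ c : Fin r → 𝒪, y = ∑ i, algebraMap 𝒪 A (c i) * x i := by
  classical
  let V : Submodule (ResidueField 𝒪) A := (maximalIdeal A).restrictScalars (ResidueField 𝒪)
  have hrank : Module.rank (ResidueField 𝒪) V ≤ r := by
    apply rank_le
    intro s hs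
    have h1 : LinearIndependent (ResidueField 𝒪) (fun i : s => ((i : V) : A)) :=
      hs.map' V.subtype (Submodule.ker_subtype V)
    have h2 := Alg1_card_le 𝒪 A hres hsq r hfin hcard (fun i : s => ((i : V) : A))
      (fun i => (i : V).2) h1
    simpa using h2
  have hfinV : Module.Finite (ResidueField 𝒪) V :=
    Module.rank_lt_aleph0_iff.mp (hrank.trans_lt Cardinal.natCast_lt_aleph0)
  have hd : Module.finrank (ResidueField 𝒪) V ≤ r := by
    have := Module.finrank_eq_rank (ResidueField 𝒪) V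
    rw [← this] at hrank
    exact_mod_cast hrank
  let b := Module.finBasis (ResidueField 𝒪) V
  refine ⟨fun i => if h : (i : ℕ) < Module.finrank (ResidueField 𝒪) V then ((b ⟨i, h⟩ : V) : A)
    else 0, ?_, ?_⟩
  · intro i
    by_cases h : (i : ℕ) < Module.finrank (ResidueField 𝒪) V
    · simp only [h, dif_pos]
      exact (b ⟨i, h⟩ : V).2
    · simp only [h, dif_neg, not_false_eq_true]
      exact zero_mem _
  · intro y hy
    choose lift hlift using (residue_surjective (R := 𝒪))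
    obtain ⟨a, ha⟩ : ∃ a : Fin (Module.finrank (ResidueField 𝒪) V) → ResidueField 𝒪,
        y = ∑ j, a j • ((b j : V) : A) := by
      refine ⟨fun j => b.repr (⟨y, hy⟩ : V) j, ?_⟩
      have h1 : (⟨y, hy⟩ : V) = ∑ j, b.repr (⟨y, hy⟩ : V) j • b j := (b.sum_repr _).symm
      have h2 := congrArg (V.subtype) h1
      rw [map_sum] at h2
      simpa only [map_smul, Submodule.subtype_apply] using h2
    refine ⟨fun i => if h : (i : ℕ) < Module.finrank (ResidueField 𝒪) V then
      lift (a ⟨i, h⟩) else 0, ?_⟩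
    rw [ha]
    refine Fintype.sum_of_injective (Fin.castLE hd) (Fin.castLE_injective hd) _ _ ?_ ?_
    · intro i hi
      have h : ¬ (i : ℕ) < Module.finrank (ResidueField 𝒪) V := by
        intro h
        exact hi ⟨⟨i, h⟩, rfl⟩
      simp only [h, dif_neg, not_false_eq_true, mul_zero]
    · intro j
      have h : ((Fin.castLE hd j : Fin r) : ℕ) < Module.finrank (ResidueField 𝒪) V := j.2
      simp only [h, dif_pos]
      rw [IsScalarTower.algebraMap_apply 𝒪 (ResidueField 𝒪) A, Algebra.smul_def]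
      congr 2
      exact (hlift _).symm

variable {𝒪 : Type} [CommRing 𝒪] [IsLocalRing 𝒪] [Finite (ResidueField 𝒪)]
  {R : Type} [CommRing R] [IsLocalRing R] [IsNoetherianRing R] [Algebra 𝒪 R]
  [IsLocalHom (algebraMap 𝒪 R)]

/-- TASK S56/Top-Alg1.  Sketch: `π : R → k` the residue map (via `hres`).  The set `Der` of additive
`D : R → k` with `D (x y) = π x D y + π y D x`, `D ∘ algebraMap = 0` is a `k`-vector space in
bijection with `R →ₐ[𝒪] k[ε]` (`φ = (π, D)`), so `|k|^(dim Der) ≤ |k|^r`.  Every `D` kills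
`𝔫 := 𝔪_R² + 𝔪_𝒪 R`, and `𝔪_R/𝔫 → Dual Der` is injective by `S53.exists_dualNumber_hom` applied to
`R/𝔫`.  So `dim 𝔪_R/𝔫 ≤ r`: lift a spanning family (pad with zeros). -/
theorem exists_gens_of_card_le
    (hres : Function.Surjective (residue R ∘ algebraMap 𝒪 R)) (r : ℕ)
    (hfin : Finite (R →ₐ[𝒪] DualNumber (ResidueField 𝒪)))
    (hcard : Nat.card (R →ₐ[𝒪] DualNumber (ResidueField 𝒪)) ≤ Nat.card (ResidueField 𝒪) ^ r) :
    ∃ x : Fin r → R, (∀ i, x i ∈ maximalIdeal R) ∧
      maximalIdeal R ≤ Ideal.span (Set.range x) ⊔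
        Ideal.map (algebraMap 𝒪 R) (maximalIdeal 𝒪) ⊔ maximalIdeal R ^ 2 := by
  classical
  let 𝔫 : Ideal R := Ideal.map (algebraMap 𝒪 R) (maximalIdeal 𝒪) ⊔ maximalIdeal R ^ 2
  have hle : 𝔫 ≤ maximalIdeal R := by
    refine sup_le ?_ (Ideal.pow_le_self two_ne_zero)
    rw [Ideal.map_le_iff_le_comap]
    intro c hc
    rw [Ideal.mem_comap, mem_maximalIdeal, mem_nonunits_iff]
    intro hu
    exact hc (isUnit_of_map_unit (algebraMap 𝒪 R) c hu)
  have hpow : ∃ n : ℕ, maximalIdeal R ^ n ≤ 𝔫 := ⟨2, le_sup_right⟩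
  have hloc : IsLocalRing (R ⧸ 𝔫) := Fermat.Agent.S53.isLocalRing_quot (maximalIdeal R) 𝔫 hle hpow
  have hsq : maximalIdeal (R ⧸ 𝔫) ^ 2 = ⊥ :=
    Fermat.Agent.S53.maximalIdeal_quot_pow (maximalIdeal R) 𝔫 hpow 2 le_sup_right
  have hm : ∀ c ∈ maximalIdeal 𝒪, algebraMap 𝒪 (R ⧸ 𝔫) c = 0 := by
    intro c hc
    show Ideal.Quotient.mk 𝔫 (algebraMap 𝒪 R c) = 0
    rw [Ideal.Quotient.eq_zero_iff_mem]
    exact le_sup_left (a := Ideal.map (algebraMap 𝒪 R) (maximalIdeal 𝒪))
      (Ideal.mem_map_of_mem _ hc)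
  let ι : ResidueField 𝒪 →+* (R ⧸ 𝔫) :=
    Ideal.Quotient.lift (maximalIdeal 𝒪) (algebraMap 𝒪 (R ⧸ 𝔫)) hm
  let _ : Algebra (ResidueField 𝒪) (R ⧸ 𝔫) := ι.toAlgebra
  have htower : IsScalarTower 𝒪 (ResidueField 𝒪) (R ⧸ 𝔫) :=
    IsScalarTower.of_algebraMap_eq (fun c => rfl)
  have hresA : Function.Surjective (residue (R ⧸ 𝔫) ∘ algebraMap 𝒪 (R ⧸ 𝔫)) := by
    intro y
    obtain ⟨y, rfl⟩ := residue_surjective y
    obtain ⟨y, rfl⟩ := Ideal.Quotient.mk_surjective y
    obtain ⟨c, hc⟩ := hres (residue R y)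
    refine ⟨c, ?_⟩
    show residue (R ⧸ 𝔫) (Ideal.Quotient.mk 𝔫 (algebraMap 𝒪 R c)) = _
    rw [← sub_eq_zero, ← map_sub, ← map_sub, residue_eq_zero_iff,
      Fermat.Agent.S53.mk_mem_maximalIdeal_quot_iff (maximalIdeal R) 𝔫 hle hpow,
      ← residue_eq_zero_iff, map_sub, sub_eq_zero]
    exact hc
  -- transfer of the count
  let F : ((R ⧸ 𝔫) →ₐ[𝒪] DualNumber (ResidueField 𝒪)) → (R →ₐ[𝒪] DualNumber (ResidueField 𝒪)) :=
    fun ψ => ψ.comp (Ideal.Quotient.mkₐ 𝒪 𝔫)
  have hF : Function.Injective F := by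
    intro ψ ψ' h
    apply AlgHom.ext
    intro y
    obtain ⟨y, rfl⟩ := Ideal.Quotient.mk_surjective y
    exact DFunLike.congr_fun h y
  have hfinA : Finite ((R ⧸ 𝔫) →ₐ[𝒪] DualNumber (ResidueField 𝒪)) := Finite.of_injective F hF
  have hcardA : Nat.card ((R ⧸ 𝔫) →ₐ[𝒪] DualNumber (ResidueField 𝒪)) ≤
      Nat.card (ResidueField 𝒪) ^ r := (Nat.card_le_card_of_injective F hF).trans hcard
  obtain ⟨x, hx, hspan⟩ := Alg1_span 𝒪 (R ⧸ 𝔫) hresA hsq r hfinA hcardA
  choose x' hx' using fun i => Ideal.Quotient.mk_surjective (x i)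
  refine ⟨x', fun i => ?_, fun y hy => ?_⟩
  · rw [← Fermat.Agent.S53.mk_mem_maximalIdeal_quot_iff (maximalIdeal R) 𝔫 hle hpow, hx']
    exact hx i
  · obtain ⟨c, hc⟩ := hspan (Ideal.Quotient.mk 𝔫 y)
      ((Fermat.Agent.S53.mk_mem_maximalIdeal_quot_iff (maximalIdeal R) 𝔫 hle hpow y).mpr hy)
    have h1 : y - ∑ i, algebraMap 𝒪 R (c i) * x' i ∈ 𝔫 := by
      rw [← Ideal.Quotient.eq_zero_iff_mem, map_sub, hc, map_sum, sub_eq_zero]
      refine Finset.sum_congr rfl fun i _ => ?_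
      rw [map_mul, hx']
      rfl
    have h2 : ∑ i, algebraMap 𝒪 R (c i) * x' i ∈ Ideal.span (Set.range x') :=
      Ideal.sum_mem _ fun i _ => Ideal.mul_mem_left _ _ (Ideal.subset_span ⟨i, rfl⟩)
    have h3 : y = ∑ i, algebraMap 𝒪 R (c i) * x' i + (y - ∑ i, algebraMap 𝒪 R (c i) * x' i) := by
      ring
    rw [h3, sup_assoc]
    exact Ideal.add_mem _ (Ideal.mem_sup_left h2) (Ideal.mem_sup_right h1)

/-- TASK S56/Top-Alg2.  Sketch: `P = 𝒪⟦X⟧` is complete (`S53.mvps_isAdicComplete`), `γ = psEval`,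
`γ X_i = x_i` (`S53.psEval_X`); `𝔪_R = γ(𝔪_P) R` by Nakayama
(`S53.maximalIdeal_eq_span_of_le_sup_sq`); successive approximation
(`S53.exists_mem_sub_mem_pow_succ`-style, keeping the corrections in `𝔪_P^n`) + completeness of `P`
+ Hausdorffness of `R`. -/
theorem psEval_surjective [IsAdicComplete (maximalIdeal 𝒪) 𝒪]
    [IsAdicComplete (maximalIdeal R) R]
    (hres : Function.Surjective (residue R ∘ algebraMap 𝒪 R)) (r : ℕ)
    (x : Fin r → R) (hx : ∀ i, x i ∈ maximalIdeal R)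
    (hgen : maximalIdeal R ≤ Ideal.span (Set.range x) ⊔
        Ideal.map (algebraMap 𝒪 R) (maximalIdeal 𝒪) ⊔ maximalIdeal R ^ 2) :
    Function.Surjective (Fermat.Agent.S53.psEval (𝒪 := 𝒪) (maximalIdeal R) x hx) := by
  set γ := Fermat.Agent.S53.psEval (𝒪 := 𝒪) (maximalIdeal R) x hx with hγ
  have hγX : ∀ l, γ (MvPowerSeries.X l) = x l := fun l => Fermat.Agent.S53.psEval_X _ x hx l
  have hloc : IsLocalHom (γ : MvPowerSeries (Fin r) 𝒪 →+* R) :=
    Fermat.Agent.S53.algHom_isLocalHom γ (fun l => by rw [hγX]; exact hx l)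
  set T : Set R := Set.range x ∪ (algebraMap 𝒪 R '' (maximalIdeal 𝒪 : Set 𝒪)) with hTdef
  have hspan : Ideal.span T = Ideal.span (Set.range x) ⊔
      Ideal.map (algebraMap 𝒪 R) (maximalIdeal 𝒪) := by
    rw [hTdef, Ideal.span_union]; rfl
  have hTm : T ⊆ maximalIdeal R := by
    rintro _ (⟨l, rfl⟩ | ⟨c, hc, rfl⟩)
    · exact hx l
    · exact map_nonunit (algebraMap 𝒪 R) c hc
  have hm : maximalIdeal R = Ideal.span T :=
    Fermat.Agent.S53.maximalIdeal_eq_span_of_le_sup_sq T hTm (by rw [hspan]; exact hgen)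
  have hmap : (maximalIdeal (MvPowerSeries (Fin r) 𝒪)).map
      (γ : MvPowerSeries (Fin r) 𝒪 →+* R) = maximalIdeal R := by
    apply le_antisymm
    · rw [Ideal.map_le_iff_le_comap]
      intro f hf
      exact map_nonunit (γ : MvPowerSeries (Fin r) 𝒪 →+* R) f hf
    · rw [hm, Ideal.span_le]
      rintro _ (⟨l, rfl⟩ | ⟨c, hc, rfl⟩)
      · rw [← hγX l]
        exact Ideal.mem_map_of_mem _ (Fermat.Agent.S53.mvps_X_mem_maximalIdeal l)
      · rw [← γ.commutes c]
        refine Ideal.mem_map_of_mem (γ : MvPowerSeries (Fin r) 𝒪 →+* R) ?_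
        rw [Fermat.Agent.S53.mvps_mem_maximalIdeal_iff]
        simpa [MvPowerSeries.algebraMap_apply] using hc
  have hP := Fermat.Agent.S53.mvps_isAdicComplete 𝒪 r
  have hpre : IsPrecomplete (maximalIdeal (MvPowerSeries (Fin r) 𝒪))
      (MvPowerSeries (Fin r) 𝒪) := inferInstance
  have hhaus : IsHausdorff ((maximalIdeal (MvPowerSeries (Fin r) 𝒪)).map
      (γ : MvPowerSeries (Fin r) 𝒪 →+* R)) R := by
    rw [hmap]; infer_instance
  refine surjective_of_mk_map_comp_surjective (I := maximalIdeal (MvPowerSeries (Fin r) 𝒪))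
    (γ : MvPowerSeries (Fin r) 𝒪 →+* R) ?_
  intro y
  obtain ⟨y, rfl⟩ := Ideal.Quotient.mk_surjective y
  obtain ⟨c, hc⟩ := hres (residue R y)
  refine ⟨algebraMap 𝒪 _ c, ?_⟩
  rw [RingHom.comp_apply, Ideal.Quotient.eq, hmap, ← residue_eq_zero_iff, map_sub, sub_eq_zero,
    ← hc]
  show residue R (γ (algebraMap 𝒪 _ c)) = _
  rw [γ.commutes]; rfl

theorem exists_surjective_of_card_le [IsAdicComplete (maximalIdeal 𝒪) 𝒪]
    [IsAdicComplete (maximalIdeal R) R]
    (hres : Function.Surjective (residue R ∘ algebraMap 𝒪 R)) (r : ℕ)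
    (hfin : Finite (R →ₐ[𝒪] DualNumber (ResidueField 𝒪)))
    (hcard : Nat.card (R →ₐ[𝒪] DualNumber (ResidueField 𝒪)) ≤ Nat.card (ResidueField 𝒪) ^ r) :
    ∃ γ : MvPowerSeries (Fin r) 𝒪 →ₐ[𝒪] R, Function.Surjective γ := by
  obtain ⟨x, hx, hgen⟩ := exists_gens_of_card_le hres r hfin hcard
  exact ⟨_, psEval_surjective hres r x hx hgen⟩

end Fermat.Agent.S56.Top

end
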