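/-
S56 / Top / Hom : `𝒪`-algebra homomorphisms `R → k[ε]`.
-/
import Fermat.Agent.S53.Tangent
import Fermat.Agent.S53.LimitRingA

set_option autoImplicit false

noncomputable section

namespace Fermat.Agent.S56.Top

open IsLocalRing TrivSqZeroExt

attribute [local instance] Fermat.Agent.S53.algDN

variable {𝒪 : Type} [CommRing 𝒪] [IsLocalRing 𝒪]
  {R : Type} [CommRing R] [IsLocalRing R] [Algebra 𝒪 R] [IsLocalHom (algebraMap 𝒪 R)]

theorem algebraMap_DN (c : 𝒪) :
    algebraMap 𝒪 (DualNumber (ResidueField 𝒪)) c = inl (residue 𝒪 c) := rfl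

/-- `fst ∘ φ : R → k`. -/
def Hom_psi (φ : R →ₐ[𝒪] DualNumber (ResidueField 𝒪)) : R →+* ResidueField 𝒪 :=
  ((fstHom (ResidueField 𝒪) (ResidueField 𝒪) (ResidueField 𝒪)) :
    DualNumber (ResidueField 𝒪) →+* ResidueField 𝒪).comp (φ : R →+* DualNumber (ResidueField 𝒪))

omit [IsLocalRing R] [IsLocalHom (algebraMap 𝒪 R)] in
theorem Hom_psi_apply (φ : R →ₐ[𝒪] DualNumber (ResidueField 𝒪)) (x : R) :
    Hom_psi φ x = fst (φ x) := rfl

theorem Hom_psi_algebraMap (φ : R →ₐ[𝒪] DualNumber (ResidueField 𝒪)) (c : 𝒪) :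
    Hom_psi φ (algebraMap 𝒪 R c) = residue 𝒪 c := by
  rw [Hom_psi_apply, φ.commutes, algebraMap_DN, fst_inl]

theorem Hom_ker_psi (φ : R →ₐ[𝒪] DualNumber (ResidueField 𝒪)) :
    RingHom.ker (Hom_psi φ) = maximalIdeal R := by
  apply IsLocalRing.eq_maximalIdeal
  apply RingHom.ker_isMaximal_of_surjective
  intro a
  obtain ⟨c, rfl⟩ := residue_surjective a
  exact ⟨algebraMap 𝒪 R c, Hom_psi_algebraMap φ c⟩

/-- TASK S56/Top-Hom (a): `fst ∘ φ : R → k` is a surjective ring hom, its kernel is `𝔪_R`. -/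
theorem isLocalHom_algHom (φ : R →ₐ[𝒪] DualNumber (ResidueField 𝒪)) :
    IsLocalHom (φ : R →+* DualNumber (ResidueField 𝒪)) := by
  refine ⟨fun x hx => ?_⟩
  by_contra hx'
  have h1 : x ∈ RingHom.ker (Hom_psi φ) := by
    rw [Hom_ker_psi]
    exact (mem_maximalIdeal x).2 hx'
  have h2 : IsUnit (fst (φ x)) := isUnit_iff_isUnit_fst.mp hx
  rw [RingHom.mem_ker, Hom_psi_apply] at h1
  rw [h1] at h2
  exact not_isUnit_zero h2

/-- TASK S56/Top-Hom (b) -/
theorem map_fst_algHom (hres : Function.Surjective (residue R ∘ algebraMap 𝒪 R))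
    (φ : R →ₐ[𝒪] DualNumber (ResidueField 𝒪)) (x : R) :
    ResidueField.map (algebraMap 𝒪 R) (fst (φ x)) = residue R x := by
  obtain ⟨c, hc⟩ := hres (residue R x)
  have hc' : residue R (algebraMap 𝒪 R c) = residue R x := hc
  have h1 : x - algebraMap 𝒪 R c ∈ RingHom.ker (Hom_psi φ) := by
    rw [Hom_ker_psi, ← residue_eq_zero_iff, map_sub, hc', sub_self]
  rw [RingHom.mem_ker, map_sub, Hom_psi_algebraMap, sub_eq_zero, Hom_psi_apply] at h1
  rw [h1, ← hc']
  rfl

/-- TASK S56/Top-Hom (c): a non surjective `φ` is the trivial homomorphism. -/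
theorem eq_inl_of_not_surjective (φ : R →ₐ[𝒪] DualNumber (ResidueField 𝒪))
    (h : ¬ Function.Surjective φ) (x : R) : φ x = inl (fst (φ x)) := by
  by_contra hx
  apply h
  have hs : snd (φ x) ≠ 0 := by
    intro h0
    apply hx
    ext
    · rw [fst_inl]
    · rw [snd_inl, h0]
  obtain ⟨c, hc⟩ := residue_surjective (fst (φ x))
  have hy : φ (x - algebraMap 𝒪 R c) = inr (snd (φ x)) := by
    rw [map_sub, φ.commutes, algebraMap_DN, hc]
    ext
    · simp
    · simp
  intro z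
  obtain ⟨α, hα⟩ := residue_surjective (fst z)
  obtain ⟨β, hβ⟩ := residue_surjective (snd z / snd (φ x))
  refine ⟨algebraMap 𝒪 R α + algebraMap 𝒪 R β * (x - algebraMap 𝒪 R c), ?_⟩
  rw [map_add, map_mul, hy, φ.commutes, φ.commutes, algebraMap_DN, algebraMap_DN, hα, hβ]
  ext
  · simp
  · simp [mul_div_cancel₀ _ hs]

/-- TASK S56/Top-Hom (d): the structure of `k[ε]` needed to apply `DeformationRingData.universal`. -/
theorem isNoetherianRing_DN [Finite (ResidueField 𝒪)] :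
    IsNoetherianRing (DualNumber (ResidueField 𝒪)) := by
  have := Fermat.Agent.S53.finite_DN 𝒪
  infer_instance

theorem Hom_mem_maximalIdeal (x : DualNumber (ResidueField 𝒪)) :
    x ∈ maximalIdeal (DualNumber (ResidueField 𝒪)) ↔ fst x = 0 := by
  rw [mem_maximalIdeal, mem_nonunits_iff, isUnit_iff_isUnit_fst, isUnit_iff_ne_zero, not_not]

theorem Hom_maximalIdeal_sq : maximalIdeal (DualNumber (ResidueField 𝒪)) ^ 2 = ⊥ := by
  rw [eq_bot_iff, sq, Ideal.mul_le]
  intro x hx y hy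
  rw [Hom_mem_maximalIdeal] at hx hy
  rw [Ideal.mem_bot]
  ext
  · simp [hx]
  · simp [hx, hy]

theorem isAdicComplete_DN :
    IsAdicComplete (maximalIdeal (DualNumber (ResidueField 𝒪))) (DualNumber (ResidueField 𝒪)) := by
  exact Fermat.Agent.S53.isAdicComplete_of_pow_eq_bot _ 2 Hom_maximalIdeal_sq

theorem isLocalHom_algebraMap_DN : IsLocalHom (algebraMap 𝒪 (DualNumber (ResidueField 𝒪))) := by
  refine ⟨fun c hc => ?_⟩
  have h1 : IsUnit (fst (algebraMap 𝒪 (DualNumber (ResidueField 𝒪)) c)) :=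
    isUnit_iff_isUnit_fst.mp hc
  rw [algebraMap_DN, fst_inl] at h1
  by_contra hc'
  rw [(residue_eq_zero_iff c).mpr ((mem_maximalIdeal c).mpr hc')] at h1
  exact not_isUnit_zero h1

theorem residue_surjective_DN : Function.Surjective
    (residue (DualNumber (ResidueField 𝒪)) ∘ algebraMap 𝒪 (DualNumber (ResidueField 𝒪))) := by
  intro x
  obtain ⟨y, rfl⟩ := residue_surjective x
  obtain ⟨c, hc⟩ := residue_surjective (fst y)
  refine ⟨c, ?_⟩
  show residue _ (algebraMap 𝒪 (DualNumber (ResidueField 𝒪)) c) = residue _ y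
  rw [← sub_eq_zero, ← map_sub, residue_eq_zero_iff, Hom_mem_maximalIdeal, fst_sub, algebraMap_DN,
    fst_inl, hc, sub_self]

/-- `x ∈ 𝔪_{k[ε]} ↔ fst x = 0`. -/
theorem mem_maximalIdeal_DN (x : DualNumber (ResidueField 𝒪)) :
    x ∈ maximalIdeal (DualNumber (ResidueField 𝒪)) ↔ fst x = 0 := by
  exact Hom_mem_maximalIdeal x

theorem maximalIdeal_DN_sq : maximalIdeal (DualNumber (ResidueField 𝒪)) ^ 2 = ⊥ := by
  exact Hom_maximalIdeal_sq

end Fermat.Agent.S56.Top

end
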