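/-
S56 / Top / Lift : matrix lifts `N` of `M` to the dual numbers and their `ε`-parts (pure algebra).
`N σ = (1 + ε · eps σ) M σ`.
-/
import Fermat.Agent.S56.Defs

set_option autoImplicit false

noncomputable section

namespace Fermat.Agent.S56.Top

open Fermat.Agent.S55 Fermat.Agent.S55.Places TrivSqZeroExt

variable {k : Type} [Field k]

/-- `ε`-part of a lift. -/
def eps (M : GQ →* M2 k) (N : GQ →* M2 (DualNumber k)) (σ : GQ) : M2 k :=
  (N σ).map TrivSqZeroExt.snd * M σ⁻¹

/-- `N` reduces to `M`. -/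
def Red (M : GQ →* M2 k) (N : GQ →* M2 (DualNumber k)) : Prop :=
  ∀ σ, (N σ).map TrivSqZeroExt.fst = M σ

/-! ### helper lemmas on `2 × 2` matrices over the dual numbers -/

theorem Lift_fst_mul (X Y : M2 (DualNumber k)) :
    (X * Y).map TrivSqZeroExt.fst = X.map TrivSqZeroExt.fst * Y.map TrivSqZeroExt.fst := by
  ext i j
  simp [Matrix.mul_apply, Fin.sum_univ_two]

theorem Lift_snd_mul (X Y : M2 (DualNumber k)) :
    (X * Y).map TrivSqZeroExt.snd =
      X.map TrivSqZeroExt.fst * Y.map TrivSqZeroExt.snd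
        + X.map TrivSqZeroExt.snd * Y.map TrivSqZeroExt.fst := by
  ext i j
  simp [Matrix.mul_apply, Fin.sum_univ_two]
  ring

omit [Field k] in
theorem Lift_ext {X Y : M2 (DualNumber k)}
    (h1 : X.map TrivSqZeroExt.fst = Y.map TrivSqZeroExt.fst)
    (h2 : X.map TrivSqZeroExt.snd = Y.map TrivSqZeroExt.snd) : X = Y := by
  ext i j
  · exact congrFun (congrFun h1 i) j
  · exact congrFun (congrFun h2 i) j

theorem Lift_fst_one : (1 : M2 (DualNumber k)).map TrivSqZeroExt.fst = 1 := by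
  ext i j
  fin_cases i <;> fin_cases j <;> simp

theorem Lift_snd_one : (1 : M2 (DualNumber k)).map TrivSqZeroExt.snd = 0 := by
  ext i j
  fin_cases i <;> fin_cases j <;> simp

variable {M : GQ →* M2 k} {N N' : GQ →* M2 (DualNumber k)}

theorem Lift_eps_mul_M (σ : GQ) : eps M N σ * M σ = (N σ).map TrivSqZeroExt.snd := by
  rw [eps, mul_assoc, map_inv_mul, mul_one]

/-- TASK S56/Top-Lift (a) -/
theorem eq_of_red (h : Red M N) (σ : GQ) (i j : Fin 2) :
    N σ i j = inl (M σ i j) + inr ((eps M N σ * M σ) i j) := by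
  rw [Lift_eps_mul_M, ← h σ]
  exact (TrivSqZeroExt.inl_fst_add_inr_snd_eq (N σ i j)).symm

/-- TASK S56/Top-Lift (b): uniqueness of the `ε`-part. -/
theorem eps_eq_of_eq (z : GQ → M2 k)
    (h : ∀ (σ : GQ) (i j : Fin 2), N σ i j = inl (M σ i j) + inr ((z σ * M σ) i j)) :
    Red M N ∧ ∀ σ, eps M N σ = z σ := by
  refine ⟨fun σ => ?_, fun σ => ?_⟩
  · ext i j
    rw [Matrix.map_apply, h σ i j]
    simp
  · have h1 : (N σ).map TrivSqZeroExt.snd = z σ * M σ := by
      ext i j
      rw [Matrix.map_apply, h σ i j]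
      simp
    rw [eps, h1, mul_assoc, map_mul_inv, mul_one]

/-- TASK S56/Top-Lift (c): cocycle relation. -/
theorem eps_mul (h : Red M N) (σ τ : GQ) :
    eps M N (σ * τ) = M σ * eps M N τ * M σ⁻¹ + eps M N σ := by
  have h1 : (N (σ * τ)).map TrivSqZeroExt.snd
      = M σ * (N τ).map TrivSqZeroExt.snd + (N σ).map TrivSqZeroExt.snd * M τ := by
    rw [map_mul, Lift_snd_mul, h σ, h τ]
  have h2 : M τ * (M τ⁻¹ * M σ⁻¹) = M σ⁻¹ := by
    rw [← mul_assoc, map_mul_inv, one_mul]
  rw [eps, h1, mul_inv_rev, map_mul, add_mul, eps, eps, mul_assoc _ (M τ), h2]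
  simp only [mul_assoc]

/-- TASK S56/Top-Lift (d): `det N = det M` forces trace zero. -/
theorem trace_eps (h : Red M N) (hdet : ∀ σ, (N σ).det = inl (M σ).det) (σ : GQ) :
    (eps M N σ).trace = 0 := by
  set n : M2 k := (N σ).map TrivSqZeroExt.snd with hn
  have hfst : ∀ i j, (N σ i j).fst = M σ i j := fun i j => congrFun (congrFun (h σ) i) j
  have hsnd : ∀ i j, (N σ i j).snd = n i j := fun i j => rfl
  have h1 : M σ 0 0 * n 1 1 + n 0 0 * M σ 1 1 - (M σ 0 1 * n 1 0 + n 0 1 * M σ 1 0) = 0 := by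
    have h2 := congrArg TrivSqZeroExt.snd (hdet σ)
    rw [Matrix.det_fin_two] at h2
    simp only [TrivSqZeroExt.snd_sub, TrivSqZeroExt.snd_mul, TrivSqZeroExt.snd_inl, hfst, hsnd,
      smul_eq_mul, MulOpposite.smul_eq_mul_unop, MulOpposite.unop_op] at h2
    linear_combination h2
  have h3 : (n * (M σ).adjugate).trace = 0 := by
    rw [Matrix.adjugate_fin_two, Matrix.trace_fin_two]
    simp [Matrix.mul_apply, Fin.sum_univ_two]
    linear_combination h1
  have h4 : (M σ).adjugate = (M σ).det • M σ⁻¹ := by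
    have : (M σ).adjugate * (M σ * M σ⁻¹) = (M σ).det • M σ⁻¹ := by
      rw [← mul_assoc, Matrix.adjugate_mul, Matrix.smul_mul, one_mul]
    rwa [map_mul_inv, mul_one] at this
  have hd : (M σ).det ≠ 0 := by
    intro h0
    have := congrArg Matrix.det (map_mul_inv M σ)
    rw [Matrix.det_mul, h0, zero_mul, Matrix.det_one] at this
    exact zero_ne_one this
  rw [h4, Matrix.mul_smul, Matrix.trace_smul, smul_eq_mul] at h3
  exact (mul_eq_zero.1 h3).resolve_left hd

/-- TASK S56/Top-Lift (e) -/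
theorem eps_mul_of_eq_one (h : Red M N) (σ s : GQ) (hs : N s = 1) :
    eps M N (σ * s) = eps M N σ := by
  have h1 : eps M N s = 0 := by
    rw [eps, hs, Lift_snd_one, zero_mul]
  rw [eps_mul h, h1, mul_zero, zero_mul, zero_add]

/-- TASK S56/Top-Lift (f): cohomologous `ε`-parts give conjugate lifts. -/
theorem exists_conj_of_eps_sub (h : Red M N) (h' : Red M N') (m : M2 k)
    (hm : ∀ σ, eps M N' σ - eps M N σ = M σ * m * M σ⁻¹ - m) :
    ∃ U : M2 (DualNumber k), IsUnit U ∧ ∀ σ, U * N σ = N' σ * U := by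
  set U : M2 (DualNumber k) := Matrix.of fun i j => inl ((1 : M2 k) i j) - inr (m i j) with hU
  set V : M2 (DualNumber k) := Matrix.of fun i j => inl ((1 : M2 k) i j) + inr (m i j) with hV
  have hU0 : U.map TrivSqZeroExt.fst = 1 := by
    ext i j; simp [hU]
  have hU1 : U.map TrivSqZeroExt.snd = -m := by
    ext i j; simp [hU]
  have hV0 : V.map TrivSqZeroExt.fst = 1 := by
    ext i j; simp [hV]
  have hV1 : V.map TrivSqZeroExt.snd = m := by
    ext i j; simp [hV]
  have hUV : U * V = 1 := by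
    apply Lift_ext
    · rw [Lift_fst_mul, hU0, hV0, Lift_fst_one, one_mul]
    · rw [Lift_snd_mul, hU0, hV0, hU1, hV1, Lift_snd_one, one_mul, mul_one, add_neg_cancel]
  refine ⟨U, IsUnit.of_mul_eq_one V hUV, fun σ => ?_⟩
  apply Lift_ext
  · rw [Lift_fst_mul, Lift_fst_mul, hU0, h σ, h' σ, one_mul, mul_one]
  · rw [Lift_snd_mul, Lift_snd_mul, hU0, hU1, h σ, h' σ, one_mul, mul_one,
      ← Lift_eps_mul_M (M := M) (N := N) σ, ← Lift_eps_mul_M (M := M) (N := N') σ]
    have h1 := congrArg (· * M σ) (hm σ)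
    simp only [sub_mul, mul_assoc, map_inv_mul, mul_one] at h1
    rw [neg_mul, mul_neg]
    have h2 : eps M N' σ * M σ = eps M N σ * M σ + (M σ * m - m * M σ) := by
      rw [← h1]; abel
    rw [h2]; abel

end Fermat.Agent.S56.Top

end
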