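/-
S56 / Top / Sel : the Selmer group of a family of local conditions.  FROZEN.
-/
import Fermat.Agent.S56.Defs
import Fermat.Statements.S56

set_option autoImplicit false

noncomputable section

namespace Fermat.Agent.S56

open Fermat.Agent.S55 Fermat.Agent.S55.Places ExtCitation Module Polynomial

variable {p : ℕ} [Fact p.Prime]


/-- Selmer group of a family of local conditions. -/
def Sel (𝒜 : Datum p) {X : Type} [AddCommGroup X] [Module (ZMod p) X]
    (ρ : Representation (ZMod p) 𝒜.G X)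
    (Lc : ∀ v, Submodule (ZMod p) (H1 (𝒜.Lv v) (rsub ρ (𝒜.D v)))) :
    Submodule (ZMod p) (H1 𝒜.L ρ) :=
  ⨅ v, (Lc v).comap (𝒜.loc v ρ).map1

lemma mem_Sel {𝒜 : Datum p} {X : Type} [AddCommGroup X] [Module (ZMod p) X]
    {ρ : Representation (ZMod p) 𝒜.G X}
    {Lc : ∀ v, Submodule (ZMod p) (H1 (𝒜.Lv v) (rsub ρ (𝒜.D v)))} {x : H1 𝒜.L ρ} :
    x ∈ Sel 𝒜 ρ Lc ↔ ∀ v, (𝒜.loc v ρ).map1 x ∈ Lc v := by
  simp [Sel, Submodule.mem_iInf]

end Fermat.Agent.S56

end
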