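/-
S56 / Top / Res : the residual representation in matrix form: `ResHyp` from the frozen hypotheses,
finiteness, smoothness and `H⁰(G_ℚ, ad⁰) = 0`.
-/
import Fermat.Agent.S56.Top.Sel
import Fermat.Agent.S55.Places.Galois

set_option autoImplicit false

noncomputable section

namespace Fermat.Agent.S56.Top

open Fermat.Agent.S55 Fermat.Agent.S55.Places ExtCitation Module Polynomial
open scoped TensorProduct

variable {p : ℕ} [Fact p.Prime] {k : Type} [Field k] [Algebra (ZMod p) k]

/-- a line stable under `G` gives a proper nonzero stable subspace after any base change. -/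
theorem Res_exists_stable (ρbar : ResidualGaloisRep k) (b0 : Basis (Fin 2) k ρbar.V)
    (K : Type) [Field K] [Algebra k K] (G : Subgroup GQ) (v : Fin 2 → k) (hv : v ≠ 0)
    (h : ∀ σ ∈ G, ∃ a : k, (S53.resMat ρbar b0 σ).mulVec v = a • v) :
    ∃ W : Submodule K (ρbar.baseChange K).V,
      (∀ σ ∈ G, ∀ x ∈ W, (ρbar.baseChange K).ρ σ x ∈ W) ∧ W ≠ ⊥ ∧ W ≠ ⊤ := by
  set w : ρbar.V := b0.equivFun.symm v with hw
  have hwv : ⇑(b0.repr w) = v := by
    rw [← Basis.equivFun_apply, hw, LinearEquiv.apply_symm_apply]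
  have hact : ∀ σ ∈ G, ∃ a : k, ρbar.ρ σ w = a • w := by
    intro σ hσ
    obtain ⟨a, ha⟩ := h σ hσ
    refine ⟨a, b0.equivFun.injective ?_⟩
    rw [map_smul, Basis.equivFun_apply, Basis.equivFun_apply, hwv,
      ← LinearMap.toMatrix_mulVec_repr b0 b0, hwv, ← S53.resMat_apply, ha]
  set e : K ⊗[k] ρbar.V := (1 : K) ⊗ₜ[k] w with he
  have he0 : e ≠ 0 := by
    intro h0
    apply hv
    have h1 := congrArg (Algebra.TensorProduct.basis K b0).repr h0
    rw [he, Algebra.TensorProduct.basis_repr_tmul, map_zero, one_smul] at h1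
    funext i
    have h2 := DFunLike.congr_fun h1 i
    rw [Finsupp.mapRange_apply, Finsupp.zero_apply, map_eq_zero] at h2
    rw [← hwv]
    exact h2
  refine ⟨Submodule.span K {e}, ?_, ?_, ?_⟩
  · intro σ hσ x hx
    obtain ⟨c, rfl⟩ := Submodule.mem_span_singleton.mp hx
    obtain ⟨a, ha⟩ := hact σ hσ
    have h1 : (ρbar.baseChange K).ρ σ (c • e) = (c * algebraMap k K a) • e := by
      show (ρbar.ρ σ).baseChange K (c • e) = _
      rw [map_smul, he, LinearMap.baseChange_tmul, ha, TensorProduct.tmul_smul, mul_smul,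
        algebraMap_smul]
    rw [h1]
    exact Submodule.smul_mem _ _ (Submodule.mem_span_singleton_self e)
  · intro hbot
    exact he0 ((Submodule.span_singleton_eq_bot).mp hbot)
  · intro htop
    have h1 : Module.finrank K (Submodule.span K {e}) = 1 := finrank_span_singleton he0
    rw [htop, finrank_top] at h1
    have h2 : Module.finrank K (K ⊗[k] ρbar.V) = 2 := (ρbar.baseChange K).finrank_eq
    omega

/-- TASK S56/Top-ResHyp.  `resMat ρbar b0 σ = LinearMap.toMatrix b0 b0 (ρbar.ρ σ)` (`S53.resMat_apply`).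
`fin`: `S53.resMat_factors`.  `det`: `DetIsCyclotomic` with `n = 1`, `a = cycloExp p σ`
(`span {p} = ⊥` in `k`; `ExtCitation.coe_cycloChar`).  `split`: `LinearMap.charpoly_toMatrix`.
`irr2`: a stable line `k v` gives a stable submodule of `(ρbar.baseChange K).V = K ⊗ ρbar.V`
(`K = AlgebraicClosure k` for index 1 [`G = ⊤`], `K = k` for index 2) which is neither `⊥` nor `⊤`. -/
theorem resHyp_resMat (ρbar : ResidualGaloisRep k) (b0 : Basis (Fin 2) k ρbar.V)
    (habs : ρbar.IsAbsolutelyIrreducible)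
    (hdet : (GaloisRepAdic.ofResidualGaloisRep ρbar).DetIsCyclotomic p)
    (hsplit : ∀ σ : GQ, ∃ α β : k, LinearMap.charpoly (ρbar.ρ σ) = (X - C α) * (X - C β))
    (hTW : ∀ (K : Type) [Field K] [Algebra k K] (G : Subgroup GQ), G.index = 2 →
      ∀ V : Submodule K (ρbar.baseChange K).V,
        (∀ σ ∈ G, ∀ x ∈ V, (ρbar.baseChange K).ρ σ x ∈ V) → V = ⊥ ∨ V = ⊤) :
    ResHyp p (S53.resMat ρbar b0) := by
  have hp : p.Prime := Fact.out
  have : NeZero p := ⟨hp.ne_zero⟩
  refine ⟨S53.resMat_factors ρbar b0, fun σ => ?_, fun σ => ?_, ?_⟩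
  · rw [S53.resMat_apply, LinearMap.det_toMatrix]
    have h1 := hdet.2 1 σ ((cycloChar p σ : (ZMod p)ˣ) : ZMod p).val (by
      intro μ hμ
      rw [pow_one] at hμ
      have hμ0 : μ ≠ 0 := by
        rintro rfl
        rw [zero_pow hp.ne_zero] at hμ
        exact zero_ne_one hμ
      exact cycloChar_spec (p := p) σ (Units.mk0 μ hμ0) (by
        apply Units.ext
        simpa using hμ))
    have hpk : ((p ^ 1 : ℕ) : k) = 0 := by
      rw [pow_one, ← map_natCast (algebraMap (ZMod p) k) p, ZMod.natCast_self, map_zero]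
    rw [hpk, Ideal.span_singleton_eq_bot.mpr rfl, Ideal.mem_bot, sub_eq_zero] at h1
    have h2 : LinearMap.det (ρbar.ρ σ) = ((((cycloChar p σ : (ZMod p)ˣ) : ZMod p).val : ℕ) : k) := h1
    rw [h2, ← map_natCast (algebraMap (ZMod p) k), ZMod.natCast_zmod_val]
  · obtain ⟨α, β, h⟩ := hsplit σ
    exact ⟨α, β, by rw [S53.resMat_apply, LinearMap.charpoly_toMatrix, h]⟩
  · intro G hG v hv
    by_contra hcon
    push Not at hcon
    rcases hG with hG | hG
    · obtain ⟨W, hW, h0, h1⟩ := Res_exists_stable ρbar b0 (AlgebraicClosure k) G v hv hcon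
      have hGtop : G = ⊤ := Subgroup.index_eq_one.mp hG
      rcases habs W (fun σ x hx => hW σ (by rw [hGtop]; trivial) x hx) with h | h
      · exact h0 h
      · exact h1 h
    · obtain ⟨W, hW, h0, h1⟩ := Res_exists_stable ρbar b0 k G v hv hcon
      rcases hTW k G hG W hW with h | h
      · exact h0 h
      · exact h1 h

instance finiteDimensional_Ad0 [Finite k] : FiniteDimensional (ZMod p) (Ad0 p k) := by
  have : Finite (M2 k) := inferInstanceAs (Finite (Fin 2 → Fin 2 → k))
  exact Module.Finite.of_finite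

variable {M : GQ →* M2 k}

/-- TASK S56/Top-Smooth.  As `S55.smooth_LS_of_unramified` (Z/SmoothLS.lean): `ker M` is the fixing
subgroup of a number field unramified outside `T`; it acts trivially on `Ad0`. -/
theorem exists_isOpen_ker (hM : ResHyp p M) (T : Finset Nat.Primes) (hur : UnramOutside M T) :
    ∃ U : Subgroup GQ, (LS T).IsOpen U ∧ ∀ s ∈ U, M s = 1 := by
  obtain ⟨L, hL, hML⟩ := hM.fin
  have hker : L.fixingSubgroup ≤ M.ker := by
    intro s hs
    rw [MonoidHom.mem_ker]
    exact hML s ((IntermediateField.mem_fixingSubgroup_iff L s).1 hs)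
  have hopen : IsOpenIn ⊤ M.ker := ⟨le_top, L, hL, inf_le_right.trans hker⟩
  obtain ⟨K, hK, hN, -⟩ := IsOpenIn.exists_numberField hopen
  rw [top_inf_eq] at hN
  have hKur : K.IsUnramifiedOutside T := by
    refine ⟨hK, fun q hq A hA g hg => ?_⟩
    rw [← hN, MonoidHom.mem_ker]
    exact hur q hq A hA g hg
  refine ⟨K.fixingSubgroup, LS_isOpen_iff.2 ⟨K, hKur, le_rfl⟩, fun s hs => ?_⟩
  rw [← hN, MonoidHom.mem_ker] at hs
  exact hs

theorem smooth_ad0 (hM : ResHyp p M) (T : Finset Nat.Primes) (hur : UnramOutside M T) :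
    Smooth (LS T) (ad0 p M) := by
  obtain ⟨U, hU, h⟩ := exists_isOpen_ker hM T hur
  refine ⟨fun x => ⟨U, hU, fun s hs => ?_⟩⟩
  apply Subtype.ext
  rw [ad0_apply_coe, h s hs, h s⁻¹ (U.inv_mem hs), one_mul, mul_one]

theorem smooth_ad0_all (hM : ResHyp p M) : Smooth Lall (ad0 p M) := by
  obtain ⟨L, hL, hML⟩ := hM.fin
  have h : ∀ s ∈ L.fixingSubgroup, M s = 1 := fun s hs =>
    hML s ((IntermediateField.mem_fixingSubgroup_iff L s).1 hs)
  refine ⟨fun x => ⟨L.fixingSubgroup, Lall_isOpen_iff.2 ⟨L, hL, le_rfl⟩, fun s hs => ?_⟩⟩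
  apply Subtype.ext
  rw [ad0_apply_coe, h s hs, h s⁻¹ (L.fixingSubgroup.inv_mem hs), one_mul, mul_one]

private lemma H0aux_exists_smul {k : Type} [Field k] (v u : Fin 2 → k) (hv : v ≠ 0)
    (h : v 0 * u 1 - v 1 * u 0 = 0) : ∃ t : k, u = t • v := by
  by_cases h0 : v 0 = 0
  · have h1 : v 1 ≠ 0 := by
      intro h1
      apply hv
      funext i
      fin_cases i
      · exact h0
      · exact h1
    refine ⟨u 1 / v 1, ?_⟩
    funext i
    fin_cases i
    · simp only [Fin.zero_eta, Pi.smul_apply, smul_eq_mul, h0, mul_zero]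
      rw [h0, zero_mul, zero_sub, neg_eq_zero] at h
      exact (mul_eq_zero.mp h).resolve_left h1
    · simp only [Fin.mk_one, Pi.smul_apply, smul_eq_mul]
      field_simp
  · refine ⟨u 0 / v 0, ?_⟩
    funext i
    fin_cases i
    · simp only [Fin.zero_eta, Pi.smul_apply, smul_eq_mul]
      field_simp
    · simp only [Fin.mk_one, Pi.smul_apply, smul_eq_mul]
      field_simp
      linear_combination h

private lemma H0aux_stable_line {k : Type} [Field k] (N : M2 k) (hN : N ≠ 0) (hdet : N.det = 0) :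
    ∃ v : Fin 2 → k, v ≠ 0 ∧ ∀ B : M2 k, B * N = N * B → ∃ t : k, B.mulVec v = t • v := by
  have hw : ∃ w : Fin 2 → k, N.mulVec w ≠ 0 := by
    by_contra hcon
    push Not at hcon
    apply hN
    apply Matrix.ext_of_mulVec_single
    intro i
    rw [hcon, Matrix.zero_mulVec]
  obtain ⟨w, hw⟩ := hw
  refine ⟨N.mulVec w, hw, fun B hB => ?_⟩
  apply H0aux_exists_smul _ _ hw
  rw [Matrix.mulVec_mulVec, hB, ← Matrix.mulVec_mulVec]
  set y := B.mulVec w
  rw [Matrix.det_fin_two] at hdet
  simp only [Matrix.mulVec, dotProduct, Fin.sum_univ_two]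
  linear_combination (w 0 * y 1 - w 1 * y 0) * hdet

private lemma H0aux_main {k : Type} [Field k] (h2 : (2 : k) ≠ 0) {G : Type} (M : G → M2 k)
    (hsplit : ∀ σ, ∃ α : k, (Matrix.scalar (Fin 2) α - M σ).det = 0)
    (hirr : ∀ v : Fin 2 → k, v ≠ 0 → ∃ σ, ∀ a : k, (M σ).mulVec v ≠ a • v)
    (A : M2 k) (htr : A.trace = 0) (hcomm : ∀ σ, M σ * A = A * M σ) : A = 0 := by
  by_contra hA
  rw [Matrix.trace_fin_two] at htr
  have hA11 : A 1 1 = - A 0 0 := by linear_combination htr
  set d : k := A 0 0 * A 0 0 + A 0 1 * A 1 0 with hd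
  have hAA : A * A = Matrix.scalar (Fin 2) d := by
    ext i j
    fin_cases i <;> fin_cases j <;>
      simp [Matrix.mul_apply, Fin.sum_univ_two, hA11, hd] <;> ring
  by_cases hsq : ∃ l : k, d = l * l
  · obtain ⟨l, hl⟩ := hsq
    have hN : A - Matrix.scalar (Fin 2) l ≠ 0 := by
      intro h
      have h00 := congrFun (congrFun h 0) 0
      have h11 := congrFun (congrFun h 1) 1
      have h01 := congrFun (congrFun h 0) 1
      have h10 := congrFun (congrFun h 1) 0
      simp at h00 h11 h01 h10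
      have hl0 : l = 0 := by
        have : (2 : k) * l = 0 := by linear_combination (-1 : k) * h00 - h11 + hA11
        exact (mul_eq_zero.mp this).resolve_left h2
      apply hA
      ext i j
      fin_cases i <;> fin_cases j
      · simp; linear_combination h00 + hl0
      · simp; exact h01
      · simp; exact h10
      · simp; linear_combination h11 + hl0
    have hdet : (A - Matrix.scalar (Fin 2) l).det = 0 := by
      rw [Matrix.det_fin_two]
      simp [hA11]
      linear_combination hd - hl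
    obtain ⟨v, hv, hst⟩ := H0aux_stable_line _ hN hdet
    obtain ⟨σ, hσ⟩ := hirr v hv
    obtain ⟨t, ht⟩ := hst (M σ) (by
      rw [mul_sub, sub_mul, hcomm σ]
      congr 1
      exact ((Matrix.scalar_commute l (fun r => mul_comm _ _) (M σ)).eq).symm)
    exact hσ t ht
  · have hscal : ∀ σ, ∃ α : k, M σ = Matrix.scalar (Fin 2) α := by
      intro σ
      obtain ⟨α, hα⟩ := hsplit σ
      refine ⟨α, ?_⟩
      by_contra hne
      have hN : Matrix.scalar (Fin 2) α - M σ ≠ 0 := fun h => hne (sub_eq_zero.mp h).symm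
      obtain ⟨v, hv, hst⟩ := H0aux_stable_line _ hN hα
      obtain ⟨t, ht⟩ := hst A (by
        rw [mul_sub, sub_mul, hcomm σ]
        congr 1
        exact ((Matrix.scalar_commute α (fun r => mul_comm _ _) A).eq).symm)
      apply hsq
      refine ⟨t, ?_⟩
      have h1 : (A * A).mulVec v = (t * t) • v := by
        rw [← Matrix.mulVec_mulVec, ht, Matrix.mulVec_smul, ht, smul_smul]
      rw [hAA] at h1
      have h2 : (Matrix.scalar (Fin 2) d).mulVec v = d • v := by
        rw [Matrix.scalar_apply, ← Matrix.smul_one_eq_diagonal, Matrix.smul_mulVec, Matrix.one_mulVec]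
      rw [h2] at h1
      have h3 : (d - t * t) • v = 0 := by rw [sub_smul, h1, sub_self]
      rcases smul_eq_zero.mp h3 with h4 | h4
      · exact sub_eq_zero.mp h4
      · exact absurd h4 hv
    have hv : (![1, 0] : Fin 2 → k) ≠ 0 := by
      intro h
      have := congrFun h 0
      simp at this
    obtain ⟨σ, hσ⟩ := hirr _ hv
    obtain ⟨α, hα⟩ := hscal σ
    apply hσ α
    rw [hα, Matrix.scalar_apply, ← Matrix.smul_one_eq_diagonal, Matrix.smul_mulVec, Matrix.one_mulVec]

/-- TASK S56/Top-H0.  `A` trace zero commuting with all `M σ`.  `A² = -det A`.  If `A ≠ 0`: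
`det A = 0`: `ker A` is a stable line.  `-det A = a²`, `a ∈ k`, `a ≠ 0`: `ker (A - a)` is a stable line
(`p ≠ 2`).  `-det A` not a square in `k`: `M σ` has an eigenvector `v` (hsplit), then `A v` is an
eigenvector for the same eigenvalue and `v, A v` are independent, so `M σ` is scalar, for every `σ`:
every line is stable.  All cases contradict `irr2` for `G = ⊤`. -/
theorem H0_ad0_eq_bot (hp2 : p ≠ 2) (hM : ResHyp p M) : H0 (ad0 p M) = ⊥ := by
  rw [eq_bot_iff]
  intro x hx
  rw [Submodule.mem_bot]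
  have h2 : (2 : k) ≠ 0 := by
    have h2p : (2 : ZMod p) ≠ 0 := by
      intro h
      have h' : ((2 : ℕ) : ZMod p) = 0 := by exact_mod_cast h
      rw [ZMod.natCast_eq_zero_iff] at h'
      exact hp2 ((Nat.prime_dvd_prime_iff_eq (Fact.out : p.Prime) Nat.prime_two).mp h')
    have : algebraMap (ZMod p) k 2 ≠ 0 := by
      rw [Ne, map_eq_zero_iff _ (algebraMap (ZMod p) k).injective]
      exact h2p
    rwa [map_ofNat] at this
  apply Subtype.ext
  refine H0aux_main h2 (fun σ => M σ) ?_ ?_ (x : M2 k) ((mem_Ad0 p _).mp x.2) ?_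
  · intro σ
    obtain ⟨α, β, h⟩ := hM.split σ
    refine ⟨α, ?_⟩
    rw [← Matrix.eval_charpoly, h]
    simp
  · intro v hv
    obtain ⟨σ, -, hσ⟩ := hM.irr2 ⊤ (Or.inl Subgroup.index_top) v hv
    exact ⟨σ, hσ⟩
  · intro σ
    have h1 := congrArg (fun y : Ad0 p k => (y : M2 k)) (hx σ)
    simp only [ad0_apply_coe] at h1
    calc M σ * (x : M2 k) = M σ * (x : M2 k) * (M σ⁻¹ * M σ) := by rw [map_inv_mul, mul_one]
      _ = (M σ * (x : M2 k) * M σ⁻¹) * M σ := by rw [mul_assoc, mul_assoc, mul_assoc]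
      _ = (x : M2 k) * M σ := by rw [h1]

end Fermat.Agent.S56.Top

end
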