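/-
S56 / Top / Card : `Hom_𝒪(R, k[ε])` injects into the Selmer group.
-/
import Fermat.Agent.S56.Top.Res
import Fermat.Agent.S56.Top.Lift
import Fermat.Agent.S56.Top.Hom
import Fermat.Agent.S55.Places.Galois

set_option autoImplicit false

noncomputable section

namespace Fermat.Agent.S56.Top

open Fermat.Agent.S55 Fermat.Agent.S55.Places ExtCitation Module IsLocalRing TrivSqZeroExt

attribute [local instance] Fermat.Agent.S53.algDN

section general

variable {p : ℕ} [Fact p.Prime] {k : Type} [Field k] [Algebra (ZMod p) k] {M : GQ →* M2 k}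

/-- TASK S56/Top-Det.  `DetIsCyclotomic` with `n = 1`, `a = cycloExp p σ`: `span {p} = ⊥` in `k[ε]`
(char `p`), `LinearMap.det_toMatrix`, `hM.det`, `ExtCitation.coe_cycloChar`. -/
theorem det_adicMat (hM : ResHyp p M) (ρ' : GaloisRepAdic (DualNumber k))
    (b' : Basis (Fin 2) (DualNumber k) ρ'.V) (hdet : ρ'.DetIsCyclotomic p) (σ : GQ) :
    (S53.adicMat ρ' b' σ).det = inl (M σ).det := by
  have hp0 : p ≠ 0 := (Fact.out : p.Prime).ne_zero
  have hspec : ∀ μ : AlgebraicClosure ℚ, μ ^ p ^ 1 = 1 → σ μ = μ ^ cycloExp p σ := by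
    intro μ hμ
    rw [pow_one] at hμ
    have hu : IsUnit μ := IsUnit.of_pow_eq_one hμ hp0
    obtain ⟨t, rfl⟩ := hu
    have ht : t ^ p = 1 := Units.ext (by rw [Units.val_pow_eq_pow_val, hμ, Units.val_one])
    exact cycloChar_spec p σ t ht
  have h1 := hdet.2 1 σ (cycloExp p σ) hspec
  have hpk : ((p : ℕ) : k) = 0 := by
    rw [← map_natCast (algebraMap (ZMod p) k), ZMod.natCast_self, map_zero]
  have hpD : ((p ^ 1 : ℕ) : DualNumber k) = 0 := by
    rw [pow_one, ← inl_natCast, hpk, inl_zero]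
  rw [hpD, Ideal.span_singleton_eq_bot.mpr rfl, Ideal.mem_bot, sub_eq_zero] at h1
  rw [S53.adicMat_apply, LinearMap.det_toMatrix, h1, hM.det, coe_cycloChar, map_natCast,
    inl_natCast]

/-- (helper for `exists_isOpen_ker_adicMat`) `𝔪² = 0` in `k[ε]`, `k` any field. -/
theorem Card_maximalIdeal_sq (k : Type) [Field k] : maximalIdeal (DualNumber k) ^ 2 = ⊥ := by
  have hmem : ∀ x : DualNumber k, x ∈ maximalIdeal (DualNumber k) → fst x = 0 := by
    intro x hx
    rw [mem_maximalIdeal, mem_nonunits_iff, TrivSqZeroExt.isUnit_iff_isUnit_fst] at hx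
    by_contra h
    exact hx (isUnit_iff_ne_zero.2 h)
  rw [eq_bot_iff, pow_two, Ideal.mul_le]
  intro x hx y hy
  rw [Ideal.mem_bot]
  ext
  · simp [hmem x hx]
  · simp [hmem x hx, hmem y hy]

/-- TASK S56/Top-Level.  `ρ'.isAdicContinuous 2` + `𝔪² = 0` give a number field `L` with
`ρ'.ρ σ = 1` on its fixing subgroup; then as in `S55.smooth_LS_of_unramified` (Z/SmoothLS.lean). -/
theorem exists_isOpen_ker_adicMat (ρ' : GaloisRepAdic (DualNumber k))
    (b' : Basis (Fin 2) (DualNumber k) ρ'.V) (T : Finset Nat.Primes)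
    (hur : ∀ q : Nat.Primes, q ∉ T → ρ'.IsUnramifiedAt (q : ℕ)) :
    ∃ U : Subgroup GQ, (LS T).IsOpen U ∧ ∀ s ∈ U, S53.adicMat ρ' b' s = 1 := by
  obtain ⟨L, hL, hLfix⟩ := ρ'.isAdicContinuous 2
  have hker : L.fixingSubgroup ≤ ρ'.ρ.ker := by
    intro s hs
    rw [MonoidHom.mem_ker]
    ext v
    have h1 := hLfix s (fun x hx => (IntermediateField.mem_fixingSubgroup_iff L s).1 hs x hx) v
    rw [Card_maximalIdeal_sq, Submodule.bot_smul, Submodule.mem_bot, sub_eq_zero] at h1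
    exact h1
  have hopen : IsOpenIn ⊤ ρ'.ρ.ker := ⟨le_top, _, hL, inf_le_right.trans hker⟩
  obtain ⟨K, hK, hN, -⟩ := hopen.exists_numberField
  rw [top_inf_eq] at hN
  have hKur : K.IsUnramifiedOutside T := by
    refine ⟨hK, fun q hq A hA g hg => ?_⟩
    rw [← hN, MonoidHom.mem_ker]
    exact hur q hq A hA g hg
  refine ⟨K.fixingSubgroup, LS_isOpen_iff.2 ⟨K, hKur, le_rfl⟩, fun s hs => ?_⟩
  rw [← hN, MonoidHom.mem_ker] at hs
  rw [S53.adicMat_apply, hs]
  exact LinearMap.toMatrix_one b'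

/-- the cocycle of a lift -/
theorem exists_cocycle (hM : ResHyp p M) (ρ' : GaloisRepAdic (DualNumber k))
    (b' : Basis (Fin 2) (DualNumber k) ρ'.V) (hred : Red M (S53.adicMat ρ' b'))
    (hdet : ρ'.DetIsCyclotomic p) (T : Finset Nat.Primes)
    (hur : ∀ q : Nat.Primes, q ∉ T → ρ'.IsUnramifiedAt (q : ℕ)) :
    ∃ z : ↥(Z1 (LS T) (ad0 p M)), ∀ σ,
      (((z : GQ → Ad0 p k) σ : Ad0 p k) : M2 k) = eps M (S53.adicMat ρ' b') σ := by
  have htr := trace_eps hred (det_adicMat hM ρ' b' hdet)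
  obtain ⟨U, hU, hU1⟩ := exists_isOpen_ker_adicMat ρ' b' T hur
  refine ⟨⟨fun σ => ⟨eps M (S53.adicMat ρ' b') σ, (mem_Ad0 p _).2 (htr σ)⟩, ?_⟩, fun σ => rfl⟩
  rw [mem_Z1]
  refine ⟨fun g h => ?_, U, hU, fun g s hs => ?_⟩
  · apply Subtype.ext
    rw [Submodule.coe_add, ad0_apply_coe]
    exact eps_mul hred g h
  · apply Subtype.ext
    exact eps_mul_of_eq_one hred g s (hU1 s hs)

end general

end Fermat.Agent.S56.Top

end
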