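/-
S56 / Top / Inj : `Hom_𝒪(R, k[ε])` injects into the Selmer group (deformation ring part).
-/
import Fermat.Agent.S56.Top.Card

set_option autoImplicit false
set_option linter.unusedSectionVars false

noncomputable section

namespace Fermat.Agent.S56.Top

open Fermat.Agent.S55 Fermat.Agent.S55.Places ExtCitation Module IsLocalRing TrivSqZeroExt

attribute [local instance] Fermat.Agent.S53.algDN isLocalHom_algebraMap_DN isNoetherianRing_DN
  isAdicComplete_DN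

variable {𝒪 : Type} [CommRing 𝒪] [IsDomain 𝒪] [IsDiscreteValuationRing 𝒪]
  [IsAdicComplete (maximalIdeal 𝒪) 𝒪] [Finite (ResidueField 𝒪)]
  {p : ℕ} [Fact p.Prime] [Algebra (ZMod p) (ResidueField 𝒪)]
  {ρbar : ResidualGaloisRep (ResidueField 𝒪)} (b0 : Basis (Fin 2) (ResidueField 𝒪) ρbar.V)

theorem residue_DN_eq (x : DualNumber (ResidueField 𝒪)) :
    residue (DualNumber (ResidueField 𝒪)) x =
      ResidueField.map (algebraMap 𝒪 (DualNumber (ResidueField 𝒪))) (fst x) := by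
  obtain ⟨c, hc⟩ := residue_surjective (fst x)
  rw [← hc, ResidueField.map_residue, algebraMap_DN, ← sub_eq_zero, ← map_sub,
    residue_eq_zero_iff, mem_maximalIdeal_DN, fst_sub, fst_inl, hc, sub_self]

/-- a lift reducing exactly to `M` has the right residual representation -/
theorem residual_isEquiv_of_red (ρ' : GaloisRepAdic (DualNumber (ResidueField 𝒪)))
    (b' : Basis (Fin 2) (DualNumber (ResidueField 𝒪)) ρ'.V)
    (hred : Red (S53.resMat ρbar b0) (S53.adicMat ρ' b')) :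
    ρ'.residual.IsEquiv
      (ρbar.baseChangeAlong (ResidueField.map (algebraMap 𝒪 (DualNumber (ResidueField 𝒪))))) := by
  refine S53.residual_isEquiv_of_basis ρ' ρbar b0 _ b' fun σ => ?_
  ext i j
  rw [Matrix.map_apply, Matrix.map_apply, residue_DN_eq, ← hred σ, Matrix.map_apply]

variable {𝒟 : ∀ ⦃A : Type⦄ [CommRing A] [IsLocalRing A] [Algebra 𝒪 A], GaloisRepAdic A → Prop}
  (DQ : GaloisRep.DeformationRingData 𝒪 ρbar 𝒟)

/-- the push-forward of the universal deformation along `φ` -/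
def push (φ : DQ.R →ₐ[𝒪] DualNumber (ResidueField 𝒪)) :
    GaloisRepAdic (DualNumber (ResidueField 𝒪)) :=
  DQ.ρ.baseChangeAlong (φ : DQ.R →+* DualNumber (ResidueField 𝒪)) (isLocalHom_algHom φ)

/-- its basis -/
def pushBasis (b : Basis (Fin 2) DQ.R DQ.ρ.V) (φ : DQ.R →ₐ[𝒪] DualNumber (ResidueField 𝒪)) :
    Basis (Fin 2) (DualNumber (ResidueField 𝒪)) (push DQ φ).V :=
  S53.baseChangeBasis (φ : DQ.R →+* DualNumber (ResidueField 𝒪)) (isLocalHom_algHom φ) DQ.ρ b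

/-- its matrices -/
def pushMat (b : Basis (Fin 2) DQ.R DQ.ρ.V) (φ : DQ.R →ₐ[𝒪] DualNumber (ResidueField 𝒪)) :
    GQ →* M2 (DualNumber (ResidueField 𝒪)) :=
  S53.adicMat (push DQ φ) (pushBasis DQ b φ)

theorem pushMat_apply (b : Basis (Fin 2) DQ.R DQ.ρ.V)
    (φ : DQ.R →ₐ[𝒪] DualNumber (ResidueField 𝒪)) (σ : GQ) (i j : Fin 2) :
    pushMat DQ b φ σ i j = φ (S53.adicMat DQ.ρ b σ i j) := by
  have := S53.adicMat_baseChangeAlong (φ : DQ.R →+* DualNumber (ResidueField 𝒪))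
    (isLocalHom_algHom φ) DQ.ρ b σ
  exact congrFun (congrFun this i) j

variable {b0}

theorem red_pushMat (b : Basis (Fin 2) DQ.R DQ.ρ.V)
    (hb : ∀ σ, (S53.adicMat DQ.ρ b σ).map (residue DQ.R) =
      (S53.resMat ρbar b0 σ).map (ResidueField.map (algebraMap 𝒪 DQ.R)))
    (φ : DQ.R →ₐ[𝒪] DualNumber (ResidueField 𝒪)) :
    Red (S53.resMat ρbar b0) (pushMat DQ b φ) := by
  intro σ
  ext i j
  apply (ResidueField.map (algebraMap 𝒪 DQ.R)).injective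
  rw [Matrix.map_apply, pushMat_apply, map_fst_algHom DQ.residue_surjective]
  exact congrFun (congrFun (hb σ) i) j

/-- **Key step**: if `φ` is surjective and the `ε`-parts of `φ`, `ψ` are cohomologous, `φ = ψ`. -/
theorem eq_of_eps_sub (b : Basis (Fin 2) DQ.R DQ.ρ.V)
    (hb : ∀ σ, (S53.adicMat DQ.ρ b σ).map (residue DQ.R) =
      (S53.resMat ρbar b0 σ).map (ResidueField.map (algebraMap 𝒪 DQ.R)))
    (φ ψ : DQ.R →ₐ[𝒪] DualNumber (ResidueField 𝒪)) (hφ : 𝒟 (push DQ φ))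
    (m : M2 (ResidueField 𝒪))
    (hm : ∀ σ, eps (S53.resMat ρbar b0) (pushMat DQ b φ) σ -
        eps (S53.resMat ρbar b0) (pushMat DQ b ψ) σ =
      S53.resMat ρbar b0 σ * m * S53.resMat ρbar b0 σ⁻¹ - m) : φ = ψ := by
  obtain ⟨U, hU, hUN⟩ := exists_conj_of_eps_sub (red_pushMat DQ b hb ψ) (red_pushMat DQ b hb φ) m hm
  have h1 : (push DQ ψ).IsEquiv (push DQ φ) := by
    refine S53.IsEquiv.trans' (S53.isEquiv_ofMat_adicMat _ (pushBasis DQ b ψ))
      (S53.IsEquiv.trans' ?_ (S53.IsEquiv.symm' (S53.isEquiv_ofMat_adicMat _ (pushBasis DQ b φ))))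
    exact (S53.ofMat_isEquiv_iff _ _ _ _).2 ⟨U, hU, hUN⟩
  obtain ⟨χ, -, huniq⟩ := DQ.universal (DualNumber (ResidueField 𝒪)) residue_surjective_DN
    (push DQ φ) hφ (residual_isEquiv_of_red b0 _ (pushBasis DQ b φ) (red_pushMat DQ b hb φ))
  rw [huniq φ ⟨isLocalHom_algHom φ, S53.IsEquiv.refl' _⟩, huniq ψ ⟨isLocalHom_algHom ψ, h1⟩]

theorem eps_eq_zero_of_not_surjective (b : Basis (Fin 2) DQ.R DQ.ρ.V)
    (ψ : DQ.R →ₐ[𝒪] DualNumber (ResidueField 𝒪)) (h : ¬ Function.Surjective ψ) (σ : GQ) :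
    eps (S53.resMat ρbar b0) (pushMat DQ b ψ) σ = 0 := by
  have : (pushMat DQ b ψ σ).map TrivSqZeroExt.snd = 0 := by
    ext i j
    rw [Matrix.map_apply, pushMat_apply, eq_inl_of_not_surjective ψ h, snd_inl, Matrix.zero_apply]
  rw [eps, this, zero_mul]

theorem eq_of_not_surjective (φ ψ : DQ.R →ₐ[𝒪] DualNumber (ResidueField 𝒪))
    (hφ : ¬ Function.Surjective φ) (hψ : ¬ Function.Surjective ψ) : φ = ψ := by
  ext x : 1
  rw [eq_inl_of_not_surjective φ hφ, eq_inl_of_not_surjective ψ hψ]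
  congr 1
  apply (ResidueField.map (algebraMap 𝒪 DQ.R)).injective
  rw [map_fst_algHom DQ.residue_surjective, map_fst_algHom DQ.residue_surjective]

theorem loc_map1_mk {X : Type} [AddCommGroup X] [Module (ZMod p) X]
    (ρ : Representation (ZMod p) GQ X) (Sg : Finset Nat.Primes) (hpS : pPrime p ∈ Sg)
    (z : ↥(Z1 (LS Sg) ρ)) (v : ↥Sg) :
    ((arithDatum p Sg hpS).loc v ρ).map1 (H1.mk (LS Sg) ρ z) =
      (Pair.res Lall ρ (DqP v.1)).map1 (H1.mk Lall ρ ((Pair.infl LS_le_Lall ρ).z1 z)) := by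
  unfold Datum.loc
  rw [Pair.map1_comp]
  rfl

/-- **`Hom_𝒪(R, k[ε])` injects into the Selmer group.** -/
theorem exists_injective_Sel (hM : ResHyp p (S53.resMat ρbar b0))
    (Sg : Finset Nat.Primes) (hpS : pPrime p ∈ Sg)
    (Lc : ∀ v : ↥Sg, Submodule (ZMod p)
      (H1 (Lall.sub (DqP v.1)) (rsub (ad0 p (S53.resMat ρbar b0)) (DqP v.1))))
    (h1 : ∀ ρ' : GaloisRepAdic (DualNumber (ResidueField 𝒪)), 𝒟 ρ' → ρ'.DetIsCyclotomic p)
    (h2 : ∀ ρ' : GaloisRepAdic (DualNumber (ResidueField 𝒪)), 𝒟 ρ' →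
      ∀ q : Nat.Primes, q ∉ Sg → ρ'.IsUnramifiedAt (q : ℕ))
    (h3 : ∀ φ : DQ.R →ₐ[𝒪] DualNumber (ResidueField 𝒪), Function.Surjective φ → 𝒟 (push DQ φ))
    (h4 : ∀ (ρ' : GaloisRepAdic (DualNumber (ResidueField 𝒪)))
      (z : ↥(Z1 Lall (ad0 p (S53.resMat ρbar b0)))), 𝒟 ρ' →
      IsClassOf (S53.resMat ρbar b0) ρ'
        (fun σ => (((z : GQ → Ad0 p (ResidueField 𝒪)) σ : Ad0 p (ResidueField 𝒪)) :
          M2 (ResidueField 𝒪))) →
      ∀ v : ↥Sg, (Pair.res Lall (ad0 p (S53.resMat ρbar b0)) (DqP v.1)).map1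
        (H1.mk Lall (ad0 p (S53.resMat ρbar b0)) z) ∈ Lc v) :
    ∃ f : (DQ.R →ₐ[𝒪] DualNumber (ResidueField 𝒪)) →
      ↥(Sel (arithDatum p Sg hpS) (ad0 p (S53.resMat ρbar b0)) Lc), Function.Injective f := by
  classical
  obtain ⟨b, hb⟩ := S53.exists_basis_lifting DQ.ρ ρbar b0 _ DQ.residual_isEquiv
  -- the cocycles
  have hz : ∀ φ : DQ.R →ₐ[𝒪] DualNumber (ResidueField 𝒪), Function.Surjective φ →
      ∃ z : ↥(Z1 (LS Sg) (ad0 p (S53.resMat ρbar b0))), ∀ σ,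
        (((z : GQ → Ad0 p (ResidueField 𝒪)) σ : Ad0 p (ResidueField 𝒪)) : M2 (ResidueField 𝒪)) =
          eps (S53.resMat ρbar b0) (pushMat DQ b φ) σ := fun φ hφ =>
    exists_cocycle hM (push DQ φ) (pushBasis DQ b φ) (red_pushMat DQ b hb φ) (h1 _ (h3 φ hφ)) Sg
      (h2 _ (h3 φ hφ))
  choose z hzeps using hz
  have hmem : ∀ (φ : DQ.R →ₐ[𝒪] DualNumber (ResidueField 𝒪)) (hφ : Function.Surjective φ),
      H1.mk (LS Sg) (ad0 p (S53.resMat ρbar b0)) (z φ hφ) ∈ Sel (arithDatum p Sg hpS) (ad0 p (S53.resMat ρbar b0)) Lc := by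
    intro φ hφ
    rw [mem_Sel]
    intro v
    rw [loc_map1_mk]
    refine h4 (push DQ φ) ((Pair.infl LS_le_Lall (ad0 p (S53.resMat ρbar b0))).z1 (z φ hφ)) (h3 φ hφ) ?_ v
    refine ⟨pushBasis DQ b φ, fun σ i j => ?_⟩
    have h5 := eq_of_red (red_pushMat DQ b hb φ) σ i j
    rw [← hzeps φ hφ σ] at h5
    exact h5
  refine ⟨fun φ => if hφ : Function.Surjective φ then ⟨_, hmem φ hφ⟩ else 0, ?_⟩
  intro φ ψ hfg
  by_cases hφ : Function.Surjective φ <;> by_cases hψ : Function.Surjective ψ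
  · simp only [dif_pos hφ, dif_pos hψ, Subtype.mk.injEq] at hfg
    rw [← sub_eq_zero, ← map_sub, H1.mk_eq_zero_iff] at hfg
    obtain ⟨m, hm⟩ := hfg
    refine eq_of_eps_sub DQ b hb φ ψ (h3 φ hφ) (m : M2 (ResidueField 𝒪)) fun σ => ?_
    rw [← hzeps φ hφ σ, ← hzeps ψ hψ σ]
    exact congrArg Subtype.val (hm σ)
  · simp only [dif_pos hφ, dif_neg hψ] at hfg
    have hfg' : H1.mk (LS Sg) (ad0 p (S53.resMat ρbar b0)) (z φ hφ) = 0 := congrArg Subtype.val hfg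
    rw [H1.mk_eq_zero_iff] at hfg'
    obtain ⟨m, hm⟩ := hfg'
    refine eq_of_eps_sub DQ b hb φ ψ (h3 φ hφ) (m : M2 (ResidueField 𝒪)) fun σ => ?_
    rw [← hzeps φ hφ σ, eps_eq_zero_of_not_surjective DQ b ψ hψ, sub_zero]
    exact congrArg Subtype.val (hm σ)
  · simp only [dif_neg hφ, dif_pos hψ] at hfg
    have hfg' : H1.mk (LS Sg) (ad0 p (S53.resMat ρbar b0)) (z ψ hψ) = 0 := (congrArg Subtype.val hfg).symm
    rw [H1.mk_eq_zero_iff] at hfg'
    obtain ⟨m, hm⟩ := hfg'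
    refine (eq_of_eps_sub DQ b hb ψ φ (h3 ψ hψ) (m : M2 (ResidueField 𝒪)) fun σ => ?_).symm
    rw [← hzeps ψ hψ σ, eps_eq_zero_of_not_surjective DQ b φ hφ, sub_zero]
    exact congrArg Subtype.val (hm σ)
  · exact eq_of_not_surjective DQ φ ψ hφ hψ

end Fermat.Agent.S56.Top

end
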