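/-
S56 / Top / Misc : two auxiliary lemmas for the assembly.
-/
import Fermat.Agent.S56.Defs
import Fermat.Agent.S55.Places.Transitive

set_option autoImplicit false
set_option linter.unusedSectionVars false

noncomputable section

namespace Fermat.Agent.S56.Top

open Fermat.Agent.S55 Fermat.Agent.S55.Places ExtCitation Module IsLocalRing Polynomial

/-- TASK S56/Top-Sum (pure finset combinatorics). -/
theorem sum_le {r : ℕ} (T0 : Finset Nat.Primes) (qv : Fin r → Nat.Primes)
    (hinj : Function.Injective qv) (hq : ∀ i, qv i ∉ T0) (P0 : Nat.Primes)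
    (a : ↥(T0 ∪ Finset.univ.image qv) → ℤ) (f : ℤ) (hf : 0 ≤ f)
    (h1 : ∀ v, v.1 ∉ T0 → a v ≤ f) (h2 : ∀ v, v.1 = P0 → a v ≤ f)
    (h3 : ∀ v, v.1 ∈ T0 → v.1 ≠ P0 → a v ≤ 0) :
    ∑ v, a v ≤ (r + 1) * f := by
  classical
  have hb : ∀ v : ↥(T0 ∪ Finset.univ.image qv),
      a v ≤ (if v.1 ∉ T0 then f else 0) + (if v.1 = P0 then f else 0) := by
    intro v
    by_cases hv : v.1 ∈ T0
    · by_cases hP : v.1 = P0
      · have := h2 v hP
        rw [if_neg (not_not.2 hv), if_pos hP]
        linarith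
      · have := h3 v hv hP
        rw [if_neg (not_not.2 hv), if_neg hP]
        linarith
    · by_cases hP : v.1 = P0
      · have := h1 v hv
        rw [if_pos hv, if_pos hP]
        linarith
      · have := h1 v hv
        rw [if_pos hv, if_neg hP]
        linarith
  have hc1 : (Finset.univ.filter
      (fun v : ↥(T0 ∪ Finset.univ.image qv) => v.1 ∉ T0)).card ≤ r := by
    calc (Finset.univ.filter (fun v : ↥(T0 ∪ Finset.univ.image qv) => v.1 ∉ T0)).card
        ≤ (Finset.univ.image qv).card := by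
          refine Finset.card_le_card_of_injOn (fun v => v.1) ?_ ?_
          · intro v hv
            have hv' : v.1 ∉ T0 := by simpa using hv
            rcases Finset.mem_union.1 v.2 with h | h
            · exact absurd h hv'
            · exact h
          · intro v _ w _ hvw
            exact Subtype.ext hvw
      _ ≤ (Finset.univ : Finset (Fin r)).card := Finset.card_image_le
      _ = r := by simp
  have hc2 : (Finset.univ.filter
      (fun v : ↥(T0 ∪ Finset.univ.image qv) => v.1 = P0)).card ≤ 1 := by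
    rw [Finset.card_le_one]
    intro v hv w hw
    have hv' : v.1 = P0 := by simpa using hv
    have hw' : w.1 = P0 := by simpa using hw
    exact Subtype.ext (hv'.trans hw'.symm)
  calc ∑ v, a v ≤ ∑ v : ↥(T0 ∪ Finset.univ.image qv),
        ((if v.1 ∉ T0 then f else 0) + (if v.1 = P0 then f else 0)) :=
        Finset.sum_le_sum (fun v _ => hb v)
    _ = ((Finset.univ.filter
          (fun v : ↥(T0 ∪ Finset.univ.image qv) => v.1 ∉ T0)).card : ℤ) * f
        + ((Finset.univ.filter
          (fun v : ↥(T0 ∪ Finset.univ.image qv) => v.1 = P0)).card : ℤ) * f := by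
        rw [Finset.sum_add_distrib, ← Finset.sum_filter, ← Finset.sum_filter, Finset.sum_const,
          Finset.sum_const, nsmul_eq_mul, nsmul_eq_mul]
    _ ≤ (r : ℤ) * f + 1 * f := by
        have h1' : ((Finset.univ.filter
          (fun v : ↥(T0 ∪ Finset.univ.image qv) => v.1 ∉ T0)).card : ℤ) ≤ r := by
          exact_mod_cast hc1
        have h2' : ((Finset.univ.filter
          (fun v : ↥(T0 ∪ Finset.univ.image qv) => v.1 = P0)).card : ℤ) ≤ 1 := by
          exact_mod_cast hc2
        exact add_le_add (mul_le_mul_of_nonneg_right h1' hf) (mul_le_mul_of_nonneg_right h2' hf)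
    _ = (r + 1) * f := by ring

/-- TASK S56/Top-Ram : all places over `q` are conjugate (`S55.Places.exists_smul_padicPlace_eq`,
`mem_inertia_smul_iff`), `M (g σ g⁻¹) = 1 ↔ M σ = 1`. -/
theorem exists_mem_IqP_of_ramified {k : Type} [Field k] (M : GQ →* M2 k) (q : Nat.Primes)
    (h : ∃ A : ValuationSubring Qbar, A.LiesOverPrime (q : ℕ) ∧
      ∃ σ ∈ A.inertiaSubgroupIn ℚ, M σ ≠ 1) : ∃ σ ∈ IqP q, M σ ≠ 1 := by
  have : Fact (q : ℕ).Prime := ⟨q.2⟩
  obtain ⟨A, hA, σ, hσ, hM⟩ := h
  obtain ⟨g, rfl⟩ := exists_smul_padicPlace_eq (q : ℕ) A hA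
  refine ⟨g⁻¹ * σ * g, (mem_inertia_smul_iff _ g σ).1 hσ, fun h1 => hM ?_⟩
  have h2 : σ = g * (g⁻¹ * σ * g) * g⁻¹ := by group
  rw [h2, map_mul, map_mul, h1, mul_one, ← map_mul, mul_inv_cancel, map_one]

/-- TASK S56/Top-Ram -/
theorem forall_mem_IqP_of_unramified {k : Type} [Field k] (M : GQ →* M2 k) (q : Nat.Primes)
    (h : ∀ A : ValuationSubring Qbar, A.LiesOverPrime (q : ℕ) →
      ∀ σ ∈ A.inertiaSubgroupIn ℚ, M σ = 1) : ∀ σ ∈ IqP q, M σ = 1 := by
  have : Fact (q : ℕ).Prime := ⟨q.2⟩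
  intro σ hσ
  exact h (padicPlace (q : ℕ)) (padicPlace_liesOverPrime (q : ℕ)) σ hσ

end Fermat.Agent.S56.Top

end
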