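/-
S56 / Top / Stab : the Prelude's local conditions are stable under base change.
-/
import Fermat.Statements.S56

set_option autoImplicit false

noncomputable section

namespace Fermat.Agent.S56.Top

open scoped TensorProduct

variable {A B : Type} [CommRing A] [IsLocalRing A] [CommRing B] [IsLocalRing B]
  (φ : A →+* B) (hφ : IsLocalHom φ) {ρ : GaloisRepAdic A}

/-- TASK S56/Top-StabA (`LinearMap.det_baseChange`; `φ` maps `span {p^n}` into `span {p^n}`). -/
theorem detIsCyclotomic_baseChangeAlong {p : ℕ} (h : ρ.DetIsCyclotomic p) :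
    (ρ.baseChangeAlong φ hφ).DetIsCyclotomic p := by
  letI : Algebra A B := φ.toAlgebra
  obtain ⟨h1, h2⟩ := h
  refine ⟨?_, fun n σ a ha => ?_⟩
  · have := (haveI := hφ; map_nonunit φ (p : A) h1)
    rwa [map_natCast] at this
  · have h3 := h2 n σ a ha
    have hdet : LinearMap.det ((ρ.baseChangeAlong φ hφ).ρ σ) = φ (LinearMap.det (ρ.ρ σ)) := by
      change LinearMap.det ((ρ.ρ σ).baseChange B) = _
      rw [LinearMap.det_baseChange]
      rfl
    rw [hdet]
    obtain ⟨c, hc⟩ := Ideal.mem_span_singleton'.mp h3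
    rw [Ideal.mem_span_singleton']
    refine ⟨φ c, ?_⟩
    have := congrArg φ hc
    rw [map_mul, map_sub, map_natCast, map_natCast] at this
    exact this

/-- TASK S56/Top-StabA -/
theorem isUnramifiedAt_baseChangeAlong {q : ℕ} (h : ρ.IsUnramifiedAt q) :
    (ρ.baseChangeAlong φ hφ).IsUnramifiedAt q := by
  letI : Algebra A B := φ.toAlgebra
  intro P hP σ hσ
  change (ρ.ρ σ).baseChange B = 1
  rw [h P hP σ hσ, LinearMap.baseChange_one]

/-- TASK S56/Top-StabA (`LinearMap.charpoly_baseChange`). -/
theorem isUnipotentOnInertiaAt_baseChangeAlong {q : ℕ} (h : ρ.IsUnipotentOnInertiaAt q) :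
    (ρ.baseChangeAlong φ hφ).IsUnipotentOnInertiaAt q := by
  letI : Algebra A B := φ.toAlgebra
  intro P hP σ hσ
  change LinearMap.charpoly ((ρ.ρ σ).baseChange B) = _
  rw [LinearMap.charpoly_baseChange, h P hP σ hσ]
  simp

/-- pure tensors `c ⊗ w` with `w ∈ A ∙ e` lie in `B ∙ (1 ⊗ e)`. -/
theorem Stab_tmul_mem {A B V : Type} [CommRing A] [CommRing B] [Algebra A B] [AddCommGroup V]
    [Module A V] (e : V) (c : B) {w : V} (hw : w ∈ Submodule.span A {e}) :
    c ⊗ₜ[A] w ∈ Submodule.span B {(1 : B) ⊗ₜ[A] e} := by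
  obtain ⟨a, rfl⟩ := Submodule.mem_span_singleton.mp hw
  rw [Submodule.mem_span_singleton]
  refine ⟨c * algebraMap A B a, ?_⟩
  rw [TensorProduct.smul_tmul', smul_eq_mul, mul_one, TensorProduct.tmul_smul,
    TensorProduct.smul_tmul', Algebra.smul_def, mul_comm]

theorem Stab_basis {A B V : Type} [CommRing A] [CommRing B] [Algebra A B] [AddCommGroup V]
    [Module A V] (b : Module.Basis (Fin 2) A V) :
    ∃ b' : Module.Basis (Fin 2) B (B ⊗[A] V),
      Submodule.span B {(1 : B) ⊗ₜ[A] b 0} = Submodule.span B {b' 0} :=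
  ⟨Algebra.TensorProduct.basis B b, by rw [Algebra.TensorProduct.basis_apply]⟩

theorem Stab_stable {A B V : Type} [CommRing A] [CommRing B] [Algebra A B] [AddCommGroup V]
    [Module A V] (e : V) (f : Module.End A V)
    (hf : ∀ v ∈ Submodule.span A {e}, f v ∈ Submodule.span A {e}) :
    ∀ v ∈ Submodule.span B {(1 : B) ⊗ₜ[A] e},
      f.baseChange B v ∈ Submodule.span B {(1 : B) ⊗ₜ[A] e} := by
  intro v hv
  obtain ⟨c, rfl⟩ := Submodule.mem_span_singleton.mp hv
  rw [map_smul, LinearMap.baseChange_tmul]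
  exact Submodule.smul_mem _ _ (Stab_tmul_mem _ _ (hf _ (Submodule.mem_span_singleton_self _)))

theorem Stab_quot {A B V : Type} [CommRing A] [CommRing B] [Algebra A B] [AddCommGroup V]
    [Module A V] (e : V) (f : Module.End A V) (z : A)
    (hf : ∀ v, f v - z • v ∈ Submodule.span A {e}) :
    ∀ v : B ⊗[A] V, f.baseChange B v - (algebraMap A B z) • v ∈
        Submodule.span B {(1 : B) ⊗ₜ[A] e} := by
  intro v
  induction v using TensorProduct.induction_on with
  | zero => simp
  | tmul c v =>
    have : f.baseChange B (c ⊗ₜ[A] v) - (algebraMap A B z) • (c ⊗ₜ[A] v)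
        = c ⊗ₜ[A] (f v - z • v) := by
      rw [LinearMap.baseChange_tmul, TensorProduct.tmul_sub, TensorProduct.tmul_smul,
        TensorProduct.smul_tmul', TensorProduct.smul_tmul', smul_eq_mul, Algebra.smul_def z c]
    rw [this]
    exact Stab_tmul_mem _ _ (hf v)
  | add x y hx hy =>
    rw [map_add, smul_add, add_sub_add_comm]
    exact Submodule.add_mem _ hx hy

theorem Stab_quot_one {A B V : Type} [CommRing A] [CommRing B] [Algebra A B] [AddCommGroup V]
    [Module A V] (e : V) (f : Module.End A V)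
    (hf : ∀ v, f v - v ∈ Submodule.span A {e}) :
    ∀ v : B ⊗[A] V, f.baseChange B v - v ∈ Submodule.span B {(1 : B) ⊗ₜ[A] e} := by
  intro v
  have := Stab_quot (B := B) e f 1 (fun v => by rw [one_smul]; exact hf v) v
  rwa [map_one, one_smul] at this

theorem Stab_eig {A B V : Type} [CommRing A] [CommRing B] [Algebra A B] [AddCommGroup V]
    [Module A V] (e : V) (f : Module.End A V) (x : A)
    (hf : ∀ w ∈ Submodule.span A {e}, f w = x • w) :
    ∀ w ∈ Submodule.span B {(1 : B) ⊗ₜ[A] e}, f.baseChange B w = (algebraMap A B x) • w := by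
  intro w hw
  obtain ⟨c, rfl⟩ := Submodule.mem_span_singleton.mp hw
  rw [map_smul, LinearMap.baseChange_tmul, hf _ (Submodule.mem_span_singleton_self _),
    smul_comm (algebraMap A B x) c, TensorProduct.tmul_smul, TensorProduct.smul_tmul' x,
    TensorProduct.smul_tmul' (algebraMap A B x), smul_eq_mul, Algebra.smul_def x (1 : B)]

/-- TASK S56/Top-StabB (`L' := span {1 ⊗ b 0}`, basis `Algebra.TensorProduct.basis B b`). -/
theorem isStrictOrdinaryAt_baseChangeAlong {p : ℕ} (h : ρ.IsStrictOrdinaryAt p) :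
    (ρ.baseChangeAlong φ hφ).IsStrictOrdinaryAt p := by
  letI : Algebra A B := φ.toAlgebra
  obtain ⟨h1, h2⟩ := h
  refine ⟨?_, fun P hP => ?_⟩
  · have := (haveI := hφ; map_nonunit φ (p : A) h1)
    rwa [map_natCast] at this
  obtain ⟨L, ⟨b, rfl⟩, hD, hI, hx⟩ := h2 P hP
  refine ⟨Submodule.span B {(1 : B) ⊗ₜ[A] b 0}, Stab_basis b,
    fun σ hσ => Stab_stable _ _ (hD σ hσ), fun σ hσ => Stab_quot_one _ _ (hI σ hσ), ?_⟩
  intro σ hσ
  obtain ⟨x, z, hx1, hx2, hx3⟩ := hx σ hσ
  refine ⟨φ x, φ z, Stab_eig _ _ x hx1, Stab_quot _ _ z hx2, ?_⟩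
  intro n a ha
  obtain ⟨c, hc⟩ := Ideal.mem_span_singleton'.mp (hx3 n a ha)
  rw [Ideal.mem_span_singleton']
  refine ⟨φ c, ?_⟩
  have := congrArg φ hc
  rw [map_mul, map_sub, map_mul, map_natCast, map_natCast] at this
  exact this

/-- TASK S56/Top-StabC : for `J ⊂ B` of finite index take `I := J.comap φ`; then `A/I ≃ B/J` and
`V/IV ≃ (B ⊗ V)/J(B ⊗ V)` (additive, Galois equivariant); compose the given `e` with it. -/
theorem isFlatAt_baseChangeAlong {p : ℕ} (hsurj : Function.Surjective φ) (h : ρ.IsFlatAt p) :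
    (ρ.baseChangeAlong φ hφ).IsFlatAt p := by
  classical
  have key : ∀ (A B V : Type) [CommRing A] [CommRing B] [Algebra A B] [AddCommGroup V]
      [Module A V] [Module.Free A V] [Module.Finite A V]
      (_ : Function.Surjective (algebraMap A B)) (J : Ideal B),
      ∃ F : (V ⧸ ((J.comap (algebraMap A B)) • (⊤ : Submodule A V))) ≃+
          ((TensorProduct A B V) ⧸ (J • (⊤ : Submodule B (TensorProduct A B V)))),
        ∀ v : V, F (Submodule.Quotient.mk v) =
          Submodule.Quotient.mk (TensorProduct.tmul A (1 : B) v) := by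
    intro A B V _ _ _ _ _ _ _ hsurj J
    set I : Ideal A := J.comap (algebraMap A B) with hI
    let f0 : V →ₗ[A] ((TensorProduct A B V) ⧸ (J • (⊤ : Submodule B (TensorProduct A B V)))) :=
      ((J • (⊤ : Submodule B (TensorProduct A B V))).mkQ.restrictScalars A) ∘ₗ
        (TensorProduct.mk A B V 1)
    have hf0 : ∀ v, f0 v = Submodule.Quotient.mk (TensorProduct.tmul A (1 : B) v) := fun v => rfl
    have hle : I • (⊤ : Submodule A V) ≤ LinearMap.ker f0 := by
      rw [Submodule.smul_le]
      intro a ha v _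
      rw [LinearMap.mem_ker, hf0, Submodule.Quotient.mk_eq_zero]
      have : TensorProduct.tmul A (1 : B) (a • v) =
          (algebraMap A B a) • (TensorProduct.tmul A (1 : B) v) := by
        rw [TensorProduct.tmul_smul, TensorProduct.smul_tmul', TensorProduct.smul_tmul',
          Algebra.smul_def, smul_eq_mul]
      rw [this]
      exact Submodule.smul_mem_smul ha Submodule.mem_top
    let F0 := Submodule.liftQ (I • (⊤ : Submodule A V)) f0 hle
    have hF0 : ∀ v, F0 (Submodule.Quotient.mk v) =
        Submodule.Quotient.mk (TensorProduct.tmul A (1 : B) v) := fun v => rfl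
    have hinj : Function.Injective F0 := by
      rw [← LinearMap.ker_eq_bot]
      apply Submodule.ker_liftQ_eq_bot
      intro v hv
      rw [LinearMap.mem_ker, hf0, Submodule.Quotient.mk_eq_zero] at hv
      let b := Module.Free.chooseBasis A V
      have hfun : ∀ (g : (TensorProduct A B V) →ₗ[B] B) (x : TensorProduct A B V),
          x ∈ J • (⊤ : Submodule B (TensorProduct A B V)) → g x ∈ J := by
        intro g x hx
        refine Submodule.smul_induction_on hx ?_ ?_
        · intro r hr n _
          rw [map_smul, smul_eq_mul]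
          exact J.mul_mem_right _ hr
        · intro x y hx hy
          rw [map_add]
          exact J.add_mem hx hy
      have hc : ∀ i, b.repr v i ∈ I := by
        intro i
        have := hfun ((Algebra.TensorProduct.basis B b).coord i) _ hv
        rw [Module.Basis.coord_apply, Algebra.TensorProduct.basis_repr_tmul] at this
        simpa [hI, Ideal.mem_comap, Algebra.smul_def] using this
      rw [← b.sum_repr v]
      exact Submodule.sum_mem _ fun i _ => Submodule.smul_mem_smul (hc i) Submodule.mem_top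
    have hsur : Function.Surjective F0 := by
      intro y
      obtain ⟨x, rfl⟩ := Submodule.Quotient.mk_surjective _ y
      have : ∃ v : V, x = TensorProduct.tmul A (1 : B) v := by
        induction x using TensorProduct.induction_on with
        | zero => exact ⟨0, by simp⟩
        | tmul c v =>
          obtain ⟨a, rfl⟩ := hsurj c
          refine ⟨a • v, ?_⟩
          rw [TensorProduct.tmul_smul, TensorProduct.smul_tmul', Algebra.smul_def, mul_one]
        | add x y hx hy =>
          obtain ⟨v, rfl⟩ := hx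
          obtain ⟨w, rfl⟩ := hy
          exact ⟨v + w, by rw [TensorProduct.tmul_add]⟩
      obtain ⟨v, rfl⟩ := this
      exact ⟨Submodule.Quotient.mk v, hF0 v⟩
    exact ⟨AddEquiv.ofBijective F0.toAddMonoidHom ⟨hinj, hsur⟩, hF0⟩
  let _ : Algebra A B := φ.toAlgebra
  obtain ⟨hfin, hI⟩ := h
  refine ⟨?_, ?_⟩
  · have := hφ
    have hs : Function.Surjective (IsLocalRing.ResidueField.map φ) := by
      intro y
      obtain ⟨b, rfl⟩ := IsLocalRing.residue_surjective y
      obtain ⟨a, rfl⟩ := hsurj b
      exact ⟨IsLocalRing.residue A a, rfl⟩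
    exact Finite.of_surjective _ hs
  · intro J hJ
    have hfinI : Finite (A ⧸ J.comap φ) :=
      Finite.of_injective (Ideal.quotientMap J φ le_rfl) (Ideal.quotientMap_injective)
    obtain ⟨H, i1, i2, h1, h2, h3, e, he1, he2⟩ := hI (J.comap φ) hfinI
    obtain ⟨F, hF⟩ := key A B ρ.V hsurj J
    refine ⟨H, i1, i2, h1, h2, h3, e.trans F.toEquiv, ?_, ?_⟩
    · intro f g
      show F (e (f * g)) = F (e f) + F (e g)
      rw [he1, map_add]
    · intro σ f g hfg
      show F (e g) = _
      rw [he2 σ f g hfg]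
      show _ = (ρ.baseChangeAlong φ hφ).levelAction J σ (F (e f))
      obtain ⟨v, hv⟩ := Submodule.Quotient.mk_surjective _ (e f)
      rw [← hv, hF]
      exact hF _

end Fermat.Agent.S56.Top

end
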