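/-
S56 / Top / TargetEuler : what module EULER (helper98 + helper56) owes to the assembly.
The owner replaces each `sorry` by ONE call of the export of his module (add your import here).
Statements FROZEN unless the coordinator (helper74) agrees.
-/
import Fermat.Agent.S56.Top.Sel
import Fermat.Agent.S56.Euler.Main

set_option autoImplicit false

noncomputable section

namespace Fermat.Agent.S56

open Fermat.Agent.S55 Fermat.Agent.S55.Places ExtCitation Module Polynomial

variable {p : ℕ} [Fact p.Prime]

namespace Target

variable {k : Type} [Field k] [Finite k] [Algebra (ZMod p) k]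

/-- **EULER** (helper98 + helper56): `χ_Σ(ad⁰(1)) ≤ -f` for all `Σ` containing a fixed `S⁺`. -/
theorem euler (hp2 : p ≠ 2) (M : GQ →* M2 k) (hM : ResHyp p M) :
    ∃ Splus : Finset Nat.Primes, ∀ (Sg : Finset Nat.Primes) (hpS : pPrime p ∈ Sg),
      Splus ⊆ Sg → UnramOutside M Sg →
      (arithDatum p Sg hpS).chi ((arithDatum p Sg hpS).dualT (ad0 p M)) ≤
        - (finrank (ZMod p) k : ℤ) :=
  Euler.euler hp2 M hM

end Target

end Fermat.Agent.S56

end
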