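/-
S56 / Top / TargetFlat : what module FLAT (helper34 + helper28) owes to the assembly.
The owner replaces each `sorry` by ONE call of the export of his module (add your import here).
Statements FROZEN unless the coordinator (helper74) agrees.
-/
import Fermat.Agent.S56.Top.Sel
import Fermat.Agent.S56.F.Red.Main
import Fermat.Agent.S56.F.Irr.Main

set_option autoImplicit false

noncomputable section

namespace Fermat.Agent.S56

open Fermat.Agent.S55 Fermat.Agent.S55.Places ExtCitation Module Polynomial

variable {p : ℕ} [Fact p.Prime]

namespace Target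

variable {k : Type} [Field k] [Finite k] [Algebra (ZMod p) k]

/-- **FLAT** (helper34 + helper28): flat lifts. -/
theorem flat_finrank (hp2 : p ≠ 2) (M : GQ →* M2 k) (hM : ResHyp p M) :
    finrank (ZMod p) ↥(Lcond p M (fun ρ' => ρ'.DetIsCyclotomic p ∧ ρ'.IsFlatAt p)
        (pPrime p)) ≤
      finrank (ZMod p) ↥(H0 (rsub (ad0 p M) (DqP (pPrime p)))) + finrank (ZMod p) k :=
  F.Red.flat_split hp2 M hM (fun hirr => F.Irr.flat_irr hp2 M hM hirr)

end Target

end Fermat.Agent.S56

end
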