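/-
S56 / Top / TargetGW : what module GW (helper73) owes to the assembly.
The owner replaces each `sorry` by ONE call of the export of his module (add your import here).
Statements FROZEN unless the coordinator (helper74) agrees.
-/
import Fermat.Agent.S56.Top.Sel
import Fermat.Agent.S56.GW.Main

set_option autoImplicit false

noncomputable section

namespace Fermat.Agent.S56

open Fermat.Agent.S55 Fermat.Agent.S55.Places ExtCitation Module Polynomial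

variable {p : ℕ} [Fact p.Prime]

namespace Target

/-- **GW** (helper73, `GW.finrank_Sel_le`). -/
theorem gw {𝒜 : Datum p} (ax : 𝒜.Axioms) {X : Type} [AddCommGroup X] [Module (ZMod p) X]
    [FiniteDimensional (ZMod p) X] (ρ : Representation (ZMod p) 𝒜.G X) [Smooth 𝒜.L ρ]
    (Lc : ∀ v, Submodule (ZMod p) (H1 (𝒜.Lv v) (rsub ρ (𝒜.D v)))) (Qs : Set 𝒜.ι)
    (hQ : ∀ v ∈ Qs, Lc v = ⊤)
    (hkill : ∀ y : H1 𝒜.L (𝒜.dualT ρ),
      (∀ v ∈ Qs, (𝒜.loc v (𝒜.dualT ρ)).map1 y = 0) → y = 0) :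
    (finrank (ZMod p) ↥(Sel 𝒜 ρ Lc) : ℤ) ≤
      𝒜.chi (𝒜.dualT ρ) + 𝒜.h0 ρ - 𝒜.h0 (𝒜.dualT ρ) +
        ∑ v, ((finrank (ZMod p) ↥(Lc v) : ℤ) - finrank (ZMod p) ↥(H0 (rsub ρ (𝒜.D v)))) := by
  have h : Sel 𝒜 ρ Lc = GW.Sel 𝒜 ρ Lc := by
    ext x
    rw [mem_Sel, GW.mem_Sel]
  rw [h]
  exact GW.finrank_Sel_le ax ρ Lc Qs hQ hkill

end Target

end Fermat.Agent.S56

end
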