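/-
S56 / Top / TargetLoc : what module LOC (helper14) owes to the assembly.
The owner replaces each `sorry` by ONE call of the export of his module (add your import here).
Statements FROZEN unless the coordinator (helper74) agrees.
-/
import Fermat.Agent.S56.Top.Sel
import Fermat.Agent.S56.Loc.Main

set_option autoImplicit false

noncomputable section

namespace Fermat.Agent.S56

open Fermat.Agent.S55 Fermat.Agent.S55.Places ExtCitation Module Polynomial

variable {p : ℕ} [Fact p.Prime]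

namespace Target

variable {k : Type} [Field k] [Finite k] [Algebra (ZMod p) k]

/-- **LOC (U0)** (helper14): unramified classes. -/
theorem ur_finrank (q : Nat.Primes) {X : Type} [AddCommGroup X] [Module (ZMod p) X]
    [FiniteDimensional (ZMod p) X] (ρ : Representation (ZMod p) GQ X) [Smooth Lall ρ] :
    finrank (ZMod p) ↥(Lur q ρ) ≤ finrank (ZMod p) ↥(H0 (rsub ρ (DqP q))) :=
  Loc.ur_finrank q ρ

/-- **LOC (U1)** (helper14): at a prime `q ≠ p` where `ρbar` is ramified, lifts with unipotent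
characteristic polynomials on inertia have unramified classes. -/
theorem unip_le_ur (hp2 : p ≠ 2) (M : GQ →* M2 k) (hM : ResHyp p M) (q : Nat.Primes)
    (hqp : (q : ℕ) ≠ p) (hram : ∃ σ ∈ IqP q, M σ ≠ 1) :
    Lcond p M (fun ρ' => ρ'.DetIsCyclotomic p ∧ ρ'.IsUnipotentOnInertiaAt (q : ℕ)) q ≤
      Lur q (ad0 p M) :=
  Loc.unip_le_ur hp2 M hM q hqp hram

/-- **LOC (U2)** (helper14): unramified lifts have unramified classes. -/
theorem unr_le_ur (M : GQ →* M2 k) (q : Nat.Primes) :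
    Lcond p M (fun ρ' => ρ'.IsUnramifiedAt (q : ℕ)) q ≤ Lur q (ad0 p M) :=
  Loc.unr_le_ur M q

/-- **LOC (Q)** (helper14): Taylor-Wiles primes. -/
theorem tw_local (hp2 : p ≠ 2) (M : GQ →* M2 k) (hM : ResHyp p M) (q : Nat.Primes)
    (hq1 : p ∣ (q : ℕ) - 1) (hur : ∀ σ ∈ IqP q, M σ = 1)
    (hfr : ∀ P : ValuationSubring Qbar, P.LiesOverPrime (q : ℕ) → ∀ φ : GQ,
      P.IsFrobeniusAt φ (q : ℕ) → ∃ α β : k, α ≠ β ∧ (M φ).charpoly = (X - C α) * (X - C β)) :
    finrank (ZMod p) (H1 (Lall.sub (DqP q)) (rsub (ad0 p M) (DqP q))) ≤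
      finrank (ZMod p) ↥(H0 (rsub (ad0 p M) (DqP q))) + finrank (ZMod p) k :=
  Loc.tw_local hp2 M hM q hq1 hur hfr

/-- **LOC (O)** (helper14): strictly ordinary lifts. -/
theorem ord_finrank (hp2 : p ≠ 2) (M : GQ →* M2 k) (hM : ResHyp p M) :
    finrank (ZMod p) ↥(Lcond p M (fun ρ' => ρ'.DetIsCyclotomic p ∧ ρ'.IsStrictOrdinaryAt p)
        (pPrime p)) ≤
      finrank (ZMod p) ↥(H0 (rsub (ad0 p M) (DqP (pPrime p)))) + finrank (ZMod p) k :=
  Loc.ord_finrank hp2 M hM

end Target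

end Fermat.Agent.S56

end
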