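/-
S56 / Top / TargetTW : what module TW (helper55 + helper93) owes to the assembly.
The owner replaces each `sorry` by ONE call of the export of his module (add your import here).
Statements FROZEN unless the coordinator (helper74) agrees.
-/
import Fermat.Agent.S56.Top.Sel
import Fermat.Agent.S56.TW.Glue

set_option autoImplicit false

noncomputable section

namespace Fermat.Agent.S56

open Fermat.Agent.S55 Fermat.Agent.S55.Places ExtCitation Module Polynomial

variable {p : ℕ} [Fact p.Prime]

namespace Target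

variable {k : Type} [Field k] [Finite k] [Algebra (ZMod p) k]

/-- **TW** (helper55 + helper93): existence of Taylor-Wiles primes killing `H¹(G_Σ, ad⁰(1))`. -/
theorem tw (hp2 : p ≠ 2) (M : GQ →* M2 k) (hM : ResHyp p M) (T : Finset Nat.Primes)
    (hpT : pPrime p ∈ T) (hur : UnramOutside M T) :
    ∃ r : ℕ, ∀ n : ℕ, ∃ qv : Fin r → Nat.Primes, Function.Injective qv ∧
      (∀ i, qv i ∉ T ∧ p ^ (n + 1) ∣ (qv i : ℕ) - 1) ∧
      (∀ i, ∀ P : ValuationSubring Qbar, P.LiesOverPrime (qv i : ℕ) → ∀ φ : GQ,
        P.IsFrobeniusAt φ (qv i : ℕ) →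
          ∃ α β : k, α ≠ β ∧ (M φ).charpoly = (X - C α) * (X - C β)) ∧
      ∀ (hpS : pPrime p ∈ T ∪ Finset.univ.image qv)
        (y : H1 (LS (T ∪ Finset.univ.image qv))
          ((arithDatum p (T ∪ Finset.univ.image qv) hpS).dualT (ad0 p M))),
        (∀ v : ↥(T ∪ Finset.univ.image qv), v.1 ∉ T →
          ((arithDatum p (T ∪ Finset.univ.image qv) hpS).loc v
            ((arithDatum p (T ∪ Finset.univ.image qv) hpS).dualT (ad0 p M))).map1 y = 0) → y = 0 :=
  TW.exists_TW_primes hp2 M hM T hpT hur

end Target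

end Fermat.Agent.S56

end
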