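/-
S56 / Top / Targets : all the targets.
-/
import Fermat.Agent.S56.Top.TargetGW
import Fermat.Agent.S56.Top.TargetEuler
import Fermat.Agent.S56.Top.TargetLoc
import Fermat.Agent.S56.Top.TargetFlat
import Fermat.Agent.S56.Top.TargetTW
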