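/-
S56 / Top / Main : THE ASSEMBLY, parametric in the condition `𝒟p` at `p`.
-/
import Fermat.Agent.S56.Top.Inj
import Fermat.Agent.S56.Top.Alg
import Fermat.Agent.S56.Top.Stab
import Fermat.Agent.S56.Top.Misc
import Fermat.Agent.S56.Top.Targets
import Fermat.Agent.S55.Z.Axioms

set_option autoImplicit false
set_option linter.unusedSectionVars false
set_option linter.style.haveILetI false

noncomputable section

namespace Fermat.Agent.S56.Top

open Fermat.Agent.S55 Fermat.Agent.S55.Places ExtCitation Module IsLocalRing Polynomial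

attribute [local instance] Fermat.Agent.S53.algDN

section bound

variable {p : ℕ} [Fact p.Prime] {k : Type} [Field k] [Finite k] [Algebra (ZMod p) k]

variable (p) in
open Classical in
/-- the local conditions of the assembly -/
def LcOf (M : GQ →* M2 k) (Pp : GaloisRepAdic (DualNumber k) → Prop) (T0 Sg : Finset Nat.Primes)
    (v : ↥Sg) : Submodule (ZMod p) (H1 (Lall.sub (DqP v.1)) (rsub (ad0 p M) (DqP v.1))) :=
  if v.1 ∈ T0 then (if v.1 = pPrime p then Lcond p M Pp v.1 else Lur v.1 (ad0 p M)) else ⊤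

set_option maxHeartbeats 2000000 in
/-- **The numerical bound** `dim Sel ≤ r f`. -/
theorem finrank_Sel_le (hp2 : p ≠ 2) (M : GQ →* M2 k) (hM : ResHyp p M)
    (Pp : GaloisRepAdic (DualNumber k) → Prop)
    (hbound : finrank (ZMod p) ↥(Lcond p M Pp (pPrime p)) ≤
      finrank (ZMod p) ↥(H0 (rsub (ad0 p M) (DqP (pPrime p)))) + finrank (ZMod p) k)
    (T0 : Finset Nat.Primes) (hur : UnramOutside M T0) {r : ℕ} (qv : Fin r → Nat.Primes)
    (hinj : Function.Injective qv) (hq : ∀ i, qv i ∉ T0) (hq1 : ∀ i, p ∣ (qv i : ℕ) - 1)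
    (hfr : ∀ i, ∀ P : ValuationSubring Qbar, P.LiesOverPrime (qv i : ℕ) → ∀ φ : GQ,
        P.IsFrobeniusAt φ (qv i : ℕ) →
          ∃ α β : k, α ≠ β ∧ (M φ).charpoly = (X - C α) * (X - C β))
    (hpS : pPrime p ∈ T0 ∪ Finset.univ.image qv)
    (heuler : (arithDatum p (T0 ∪ Finset.univ.image qv) hpS).chi
      ((arithDatum p (T0 ∪ Finset.univ.image qv) hpS).dualT (ad0 p M)) ≤ - (finrank (ZMod p) k : ℤ))
    (hkill : ∀ (y : H1 (LS (T0 ∪ Finset.univ.image qv))
          ((arithDatum p (T0 ∪ Finset.univ.image qv) hpS).dualT (ad0 p M))),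
        (∀ v : ↥(T0 ∪ Finset.univ.image qv), v.1 ∉ T0 →
          ((arithDatum p (T0 ∪ Finset.univ.image qv) hpS).loc v
            ((arithDatum p (T0 ∪ Finset.univ.image qv) hpS).dualT (ad0 p M))).map1 y = 0) → y = 0) :
    finrank (ZMod p) ↥(Sel (arithDatum p (T0 ∪ Finset.univ.image qv) hpS) (ad0 p M)
      (LcOf p M Pp T0 (T0 ∪ Finset.univ.image qv))) ≤ r * finrank (ZMod p) k := by
  classical
  obtain ⟨ax⟩ := arithAxioms hp2 (T0 ∪ Finset.univ.image qv) hpS
  have hurS : UnramOutside M (T0 ∪ Finset.univ.image qv) :=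
    fun q hq' => hur q (fun h => hq' (Finset.mem_union_left _ h))
  have := smooth_ad0 hM _ hurS
  have := smooth_ad0_all hM
  have hgw := Target.gw ax (ad0 p M) (LcOf p M Pp T0 (T0 ∪ Finset.univ.image qv)) {v | v.1 ∉ T0}
    (fun v hv => by
      have hv' : v.1 ∉ T0 := hv
      simp only [LcOf, if_neg hv']) hkill
  have hh0 : (arithDatum p (T0 ∪ Finset.univ.image qv) hpS).h0 (ad0 p M) = 0 := by
    unfold Datum.h0
    rw [H0_ad0_eq_bot hp2 hM]
    simp
  have hh0' : 0 ≤ (arithDatum p (T0 ∪ Finset.univ.image qv) hpS).h0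
      ((arithDatum p (T0 ∪ Finset.univ.image qv) hpS).dualT (ad0 p M)) := by
    unfold Datum.h0
    positivity
  have hA : ∀ v : ↥(T0 ∪ Finset.univ.image qv), v.1 ∉ T0 →
      (finrank (ZMod p) ↥(LcOf p M Pp T0 (T0 ∪ Finset.univ.image qv) v) : ℤ) -
        finrank (ZMod p) ↥(H0 (rsub (ad0 p M) (DqP v.1))) ≤ (finrank (ZMod p) k : ℤ) := by
    intro v hv
    obtain ⟨i, -, hi⟩ := Finset.mem_image.1 ((Finset.mem_union.1 v.2).resolve_left hv)
    have h := Target.tw_local hp2 M hM v.1 (by rw [← hi]; exact hq1 i)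
      (forall_mem_IqP_of_unramified M v.1 (hur v.1 hv)) (by rw [← hi]; exact hfr i)
    have hL : LcOf p M Pp T0 (T0 ∪ Finset.univ.image qv) v = ⊤ := by
      unfold LcOf
      rw [if_neg hv]
    rw [hL, finrank_top]
    omega
  have hB : ∀ v : ↥(T0 ∪ Finset.univ.image qv), v.1 = pPrime p →
      (finrank (ZMod p) ↥(LcOf p M Pp T0 (T0 ∪ Finset.univ.image qv) v) : ℤ) -
        finrank (ZMod p) ↥(H0 (rsub (ad0 p M) (DqP v.1))) ≤ (finrank (ZMod p) k : ℤ) := by
    rintro ⟨q, hqS⟩ hv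
    by_cases hT : q ∈ T0
    · have hv' : q = pPrime p := hv
      subst hv'
      have hL : LcOf p M Pp T0 (T0 ∪ Finset.univ.image qv) ⟨pPrime p, hqS⟩ =
          Lcond p M Pp (pPrime p) := by
        unfold LcOf
        rw [if_pos hT, if_pos rfl]
      rw [hL]
      change (finrank (ZMod p) ↥(Lcond p M Pp (pPrime p)) : ℤ) -
        finrank (ZMod p) ↥(H0 (rsub (ad0 p M) (DqP (pPrime p)))) ≤ _
      omega
    · exact hA ⟨q, hqS⟩ hT
  have hC : ∀ v : ↥(T0 ∪ Finset.univ.image qv), v.1 ∈ T0 → v.1 ≠ pPrime p →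
      (finrank (ZMod p) ↥(LcOf p M Pp T0 (T0 ∪ Finset.univ.image qv) v) : ℤ) -
        finrank (ZMod p) ↥(H0 (rsub (ad0 p M) (DqP v.1))) ≤ 0 := by
    intro v hT hv
    have h := Target.ur_finrank v.1 (ad0 p M)
    have hL : LcOf p M Pp T0 (T0 ∪ Finset.univ.image qv) v = Lur v.1 (ad0 p M) := by
      unfold LcOf
      rw [if_pos hT, if_neg hv]
    rw [hL]
    omega
  have hsum := sum_le T0 qv hinj hq (pPrime p)
    (fun v => (finrank (ZMod p) ↥(LcOf p M Pp T0 (T0 ∪ Finset.univ.image qv) v) : ℤ) -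
        finrank (ZMod p) ↥(H0 (rsub (ad0 p M) (DqP v.1)))) (finrank (ZMod p) k : ℤ)
    (by positivity) hA hB hC
  have hfin : (finrank (ZMod p) ↥(Sel (arithDatum p (T0 ∪ Finset.univ.image qv) hpS) (ad0 p M)
      (LcOf p M Pp T0 (T0 ∪ Finset.univ.image qv))) : ℤ) ≤ (r : ℤ) * finrank (ZMod p) k := by
    have h6 := hgw.trans (add_le_add_right hsum _)
    rw [hh0] at h6
    nlinarith [h6, heuler, hh0']
  exact_mod_cast hfin

end bound

section main

variable {𝒪 : Type} [CommRing 𝒪] [IsDomain 𝒪] [IsDiscreteValuationRing 𝒪]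
  [IsAdicComplete (maximalIdeal 𝒪) 𝒪] [Finite (ResidueField 𝒪)]

set_option maxHeartbeats 4000000 in
/-- **The assembly**, parametric in the condition `𝒟p` at `p`. -/
theorem main_of (p : ℕ) [Fact p.Prime] (hp2 : p ≠ 2) (hp𝒪 : (p : 𝒪) ∈ maximalIdeal 𝒪)
    (ρbar : ResidualGaloisRep (ResidueField 𝒪))
    (habs : ρbar.IsAbsolutelyIrreducible)
    (hdet : (GaloisRepAdic.ofResidualGaloisRep ρbar).DetIsCyclotomic p)
    (hsplit : ∀ σ : AlgebraicClosure ℚ ≃ₐ[ℚ] AlgebraicClosure ℚ,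
      ∃ α β : ResidueField 𝒪, LinearMap.charpoly (ρbar.ρ σ) = (X - C α) * (X - C β))
    (hTW : ∀ (K : Type) [Field K] [Algebra (ResidueField 𝒪) K]
      (G : Subgroup (AlgebraicClosure ℚ ≃ₐ[ℚ] AlgebraicClosure ℚ)), G.index = 2 →
      ∀ V : Submodule K (ρbar.baseChange K).V,
        (∀ σ ∈ G, ∀ x ∈ V, (ρbar.baseChange K).ρ σ x ∈ V) → V = ⊥ ∨ V = ⊤)
    (S Smin : Finset ℕ) (hpSmin : p ∈ Smin) (hSmin : Smin ⊆ S) (hS : ∀ q ∈ S, q.Prime)
    (hmin : ∀ q : ℕ, q.Prime → q ≠ p → (q ∈ Smin ↔ ¬ ρbar.IsUnramifiedAt q))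
    (𝒟p : ∀ ⦃A : Type⦄ [CommRing A] [IsLocalRing A], GaloisRepAdic A → Prop)
    (hstab : ∀ {A B : Type} [CommRing A] [IsLocalRing A] [CommRing B] [IsLocalRing B]
      (φ : A →+* B) (hφ : IsLocalHom φ) {ρ : GaloisRepAdic A}, Function.Surjective φ →
      𝒟p ρ → 𝒟p (ρ.baseChangeAlong φ hφ))
    (hbound : ∀ [Algebra (ZMod p) (ResidueField 𝒪)] (M : GQ →* M2 (ResidueField 𝒪)),
      ResHyp p M →
      finrank (ZMod p) ↥(Lcond p M (fun ρ' => ρ'.DetIsCyclotomic p ∧ 𝒟p ρ') (pPrime p)) ≤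
        finrank (ZMod p) ↥(H0 (rsub (ad0 p M) (DqP (pPrime p)))) +
          finrank (ZMod p) (ResidueField 𝒪)) :
    ∃ r : ℕ, ∀ n : ℕ, ∃ qv : Fin r → ℕ, Function.Injective qv ∧
      (∀ i, (qv i).Prime ∧ qv i ∉ S ∧ p ^ (n + 1) ∣ qv i - 1) ∧
      (∀ i, ∀ P : ValuationSubring (AlgebraicClosure ℚ), P.LiesOverPrime (qv i) →
        ∀ φ : AlgebraicClosure ℚ ≃ₐ[ℚ] AlgebraicClosure ℚ, P.IsFrobeniusAt φ (qv i) →
          ∃ α β : ResidueField 𝒪, α ≠ β ∧ LinearMap.charpoly (ρbar.ρ φ) = (X - C α) * (X - C β)) ∧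
      ∀ DQ : GaloisRep.DeformationRingData 𝒪 ρbar (fun _A _ _ _ ρ =>
          (ρ.DetIsCyclotomic p ∧ 𝒟p ρ ∧
            ∀ q : ℕ, q.Prime → q ∉ (Smin ∪ Finset.univ.image qv) → ρ.IsUnramifiedAt q) ∧
            ∀ q ∈ Smin, q.Prime → q ≠ p → ρ.IsUnipotentOnInertiaAt q),
        ∃ γ : MvPowerSeries (Fin r) 𝒪 →ₐ[𝒪] DQ.R, Function.Surjective γ := by
  classical
  have hp : p.Prime := Fact.out
  have hchar : CharP (ResidueField 𝒪) p := by
    refine (CharP.charP_iff_prime_eq_zero hp).2 ?_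
    have := (residue_eq_zero_iff (p : 𝒪)).2 hp𝒪
    simpa using this
  letI : Algebra (ZMod p) (ResidueField 𝒪) := ZMod.algebra _ p
  set b0 := S53.someResBasis ρbar with hb0
  have hM : ResHyp p (S53.resMat ρbar b0) := resHyp_resMat ρbar b0 habs hdet hsplit hTW
  obtain ⟨Splus, hSplus⟩ := Target.euler hp2 (S53.resMat ρbar b0) hM
  set T0 : Finset Nat.Primes := (S.subtype Nat.Prime : Finset Nat.Primes) ∪ Splus with hT0
  have hmemT0 : ∀ q : Nat.Primes, (q : ℕ) ∈ S → q ∈ T0 := fun q hq =>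
    Finset.mem_union_left _ (Finset.mem_subtype.2 hq)
  have hpT0 : pPrime p ∈ T0 := hmemT0 _ (hSmin hpSmin)
  have hmat1 : ∀ σ : GQ, ρbar.ρ σ = 1 → S53.resMat ρbar b0 σ = 1 := by
    intro σ hσ
    rw [S53.resMat_apply, hσ]
    exact LinearMap.toMatrix_one b0
  have hmat1' : ∀ σ : GQ, S53.resMat ρbar b0 σ = 1 → ρbar.ρ σ = 1 := by
    intro σ hσ
    rw [S53.resMat_apply] at hσ
    apply (LinearMap.toMatrix b0 b0).injective
    rw [hσ]
    exact (LinearMap.toMatrix_one b0).symm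
  have hur0 : UnramOutside (S53.resMat ρbar b0) T0 := by
    intro q hq A hA σ hσ
    have hqS : (q : ℕ) ∉ S := fun h => hq (hmemT0 q h)
    have hqp : (q : ℕ) ≠ p := fun h => hqS (h ▸ hSmin hpSmin)
    have h1 : ρbar.IsUnramifiedAt (q : ℕ) := by
      by_contra hcon
      exact hqS (hSmin ((hmin q q.2 hqp).2 hcon))
    exact hmat1 σ (h1 A hA σ hσ)
  obtain ⟨r, hr⟩ := Target.tw hp2 (S53.resMat ρbar b0) hM T0 hpT0 hur0
  refine ⟨r, fun n => ?_⟩
  obtain ⟨qv, hinj, hq, hfr, hkill⟩ := hr n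
  refine ⟨fun i => (qv i : ℕ), fun i j hij => hinj (Subtype.ext hij),
    fun i => ⟨(qv i).2, fun h => (hq i).1 (hmemT0 _ h), (hq i).2⟩, fun i P hP φ hφ => ?_,
    fun DQ => ?_⟩
  · obtain ⟨α, β, hαβ, h⟩ := hfr i P hP φ hφ
    refine ⟨α, β, hαβ, ?_⟩
    rw [← h, S53.resMat_apply, LinearMap.charpoly_toMatrix]
  · have hpS : pPrime p ∈ T0 ∪ Finset.univ.image qv := Finset.mem_union_left _ hpT0
    have hq1 : ∀ i, p ∣ (qv i : ℕ) - 1 := fun i =>
      (dvd_pow_self p (Nat.succ_ne_zero n)).trans (hq i).2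
    have hurS : UnramOutside (S53.resMat ρbar b0) (T0 ∪ Finset.univ.image qv) :=
      fun q hq' => hur0 q (fun h => hq' (Finset.mem_union_left _ h))
    have hrank := finrank_Sel_le hp2 (S53.resMat ρbar b0) hM
      (fun ρ' => ρ'.DetIsCyclotomic p ∧ 𝒟p ρ') (hbound _ hM) T0 hur0 qv hinj (fun i => (hq i).1) hq1
      hfr hpS (hSplus _ hpS ((Finset.subset_union_right).trans Finset.subset_union_left) hurS)
      (hkill hpS)
    obtain ⟨ax⟩ := arithAxioms hp2 (T0 ∪ Finset.univ.image qv) hpS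
    have hsm := smooth_ad0 hM _ hurS
    have hfinH1 : FiniteDimensional (ZMod p)
        (H1 (LS (T0 ∪ Finset.univ.image qv)) (ad0 p (S53.resMat ρbar b0))) :=
      ax.fin1 (ad0 p (S53.resMat ρbar b0))
    have hnotin : ∀ q : Nat.Primes, (q : ℕ) ∉ Smin → q ∉ Finset.univ.image qv →
        (q : ℕ) ∉ Smin ∪ Finset.univ.image (fun i => (qv i : ℕ)) := by
      intro q h1 h2 h3
      rcases Finset.mem_union.1 h3 with h | h
      · exact h1 h
      · obtain ⟨i, -, hi⟩ := Finset.mem_image.1 h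
        exact h2 (Finset.mem_image.2 ⟨i, Finset.mem_univ _, Subtype.ext hi⟩)
    obtain ⟨f, hf⟩ := exists_injective_Sel (b0 := b0) DQ hM (T0 ∪ Finset.univ.image qv) hpS
      (LcOf p (S53.resMat ρbar b0) (fun ρ' => ρ'.DetIsCyclotomic p ∧ 𝒟p ρ') T0 _)
      (fun ρ' h => h.1.1)
      (fun ρ' h q hq' => h.1.2.2 q q.2 (hnotin q
        (fun h' => hq' (Finset.mem_union_left _ (hmemT0 q (hSmin h'))))
        (fun h' => hq' (Finset.mem_union_right _ h'))))
      (fun φ hφ => ⟨⟨detIsCyclotomic_baseChangeAlong _ _ DQ.isOfType.1.1,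
          hstab _ _ hφ DQ.isOfType.1.2.1,
          fun q hq hq' => isUnramifiedAt_baseChangeAlong _ _ (DQ.isOfType.1.2.2 q hq hq')⟩,
        fun q hq hqp hqp' => isUnipotentOnInertiaAt_baseChangeAlong _ _
          (DQ.isOfType.2 q hq hqp hqp')⟩)
      (by
        intro ρ' z hD hcl v
        by_cases hT : v.1 ∈ T0
        · by_cases hvp : v.1 = pPrime p
          · have hL : LcOf p (S53.resMat ρbar b0) (fun ρ' => ρ'.DetIsCyclotomic p ∧ 𝒟p ρ') T0
                (T0 ∪ Finset.univ.image qv) v =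
                Lcond p (S53.resMat ρbar b0) (fun ρ' => ρ'.DetIsCyclotomic p ∧ 𝒟p ρ') v.1 := by
              unfold LcOf
              rw [if_pos hT, if_pos hvp]
            rw [hL]
            exact Submodule.subset_span ⟨ρ', z, ⟨hD.1.1, hD.1.2.1⟩, hcl, rfl⟩
          · have hL : LcOf p (S53.resMat ρbar b0) (fun ρ' => ρ'.DetIsCyclotomic p ∧ 𝒟p ρ') T0
                (T0 ∪ Finset.univ.image qv) v = Lur v.1 (ad0 p (S53.resMat ρbar b0)) := by
              unfold LcOf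
              rw [if_pos hT, if_neg hvp]
            rw [hL]
            have hvp' : (v.1 : ℕ) ≠ p := fun h => hvp (Subtype.ext h)
            by_cases hvS : (v.1 : ℕ) ∈ Smin
            · have hram : ¬ ρbar.IsUnramifiedAt (v.1 : ℕ) := (hmin _ v.1.2 hvp').1 hvS
              have hram' : ∃ σ ∈ IqP v.1, S53.resMat ρbar b0 σ ≠ 1 := by
                apply exists_mem_IqP_of_ramified
                unfold ResidualGaloisRep.IsUnramifiedAt at hram
                push Not at hram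
                obtain ⟨A, hA, σ, hσ, h1⟩ := hram
                exact ⟨A, hA, σ, hσ, fun h => h1 (hmat1' σ h)⟩
              exact Target.unip_le_ur hp2 _ hM v.1 hvp' hram'
                (Submodule.subset_span ⟨ρ', z, ⟨hD.1.1, hD.2 _ hvS v.1.2 hvp'⟩, hcl, rfl⟩)
            · have hvQ : v.1 ∉ Finset.univ.image qv := by
                intro h
                obtain ⟨i, -, hi⟩ := Finset.mem_image.1 h
                exact (hq i).1 (hi ▸ hT)
              exact Target.unr_le_ur _ v.1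
                (Submodule.subset_span ⟨ρ', z, hD.1.2.2 _ v.1.2 (hnotin v.1 hvS hvQ), hcl, rfl⟩)
        · have hL : LcOf p (S53.resMat ρbar b0) (fun ρ' => ρ'.DetIsCyclotomic p ∧ 𝒟p ρ') T0
              (T0 ∪ Finset.univ.image qv) v = ⊤ := by
            unfold LcOf
            rw [if_neg hT]
          rw [hL]
          exact Submodule.mem_top)
    have hfinSel : Finite ↥(Sel (arithDatum p (T0 ∪ Finset.univ.image qv) hpS)
        (ad0 p (S53.resMat ρbar b0))
        (LcOf p (S53.resMat ρbar b0) (fun ρ' => ρ'.DetIsCyclotomic p ∧ 𝒟p ρ') T0 _)) :=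
      Module.finite_of_finite (ZMod p)
    have hfinHom : Finite (DQ.R →ₐ[𝒪] DualNumber (ResidueField 𝒪)) := Finite.of_injective f hf
    have hcard : Nat.card (DQ.R →ₐ[𝒪] DualNumber (ResidueField 𝒪)) ≤
        Nat.card (ResidueField 𝒪) ^ r := by
      refine (Nat.card_le_card_of_injective f hf).trans ?_
      rw [Module.natCard_eq_pow_finrank (K := ZMod p), Nat.card_zmod,
        Module.natCard_eq_pow_finrank (K := ZMod p) (V := ResidueField 𝒪), Nat.card_zmod,
        ← pow_mul, mul_comm (finrank (ZMod p) (ResidueField 𝒪)) r]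
      exact Nat.pow_le_pow_right hp.pos hrank
    exact exists_surjective_of_card_le DQ.residue_surjective r hfinHom hcard

end main

end Fermat.Agent.S56.Top

end
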